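import Fermat.Agent.S59.Unit3.H461.Unit3Hor

/-!
# S59 / leaf UNIT-3 (p = 3 wall), part 7: the Fricke side and the package (helper461)

* `coe_fricke_d2E` : `W (3¹² u(t²)) = u'(t^m)` at level `N = 3 * m * 2`;
* `d3E_unit_vzero` : `D = 3⁸ v⁻¹` is a unit of `V₀ = V∞.comap W` (any level `N`, `6 ∣ N`);
* `mu3_package` : the unit pair `D = 3⁸ v⁻¹`, `D' = v` at level `M * 3`, `2 ∣ M`, in the format
  of `S36.H438.mu_package` with the exponent `12` replaced by `8` (`3 ∤ 8`);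
* `castK_v3InvL_eq_sq` : in characteristic `3`, `v⁻¹ = (t ∏ (1 - tⁿ)⁸ (1 - t²ⁿ)⁸)²`.
-/

set_option autoImplicit false
set_option synthInstance.maxHeartbeats 400000
set_option maxHeartbeats 1600000

noncomputable section

namespace Fermat.Agent.S59.Unit3.H461

open ModularCurve HahnSeries Polynomial
open Fermat.Agent.A2.Mod Fermat.Agent.S28 Fermat.Agent.A2.Mod.H873
open Fermat.Agent.S36.H438 (castE uE uE' dE)

/-! ## 1. The Fricke involution -/

section Fricke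

variable (P : ValuationSubring Qb) (E : IntermediateField ℚ Qb)

theorem castE_qExpand_unitL'_mul (m : ℕ) [NeZero m] :
    castE E (qExpand ℤ m (H589.unitL' 3)) * castE E (qExpand ℤ m (unitL ℤ 3)) = 1 := by
  rw [← map_mul, ← map_mul, mul_comm, Fermat.Agent.S36.H438.unitL_mul_unitL', map_one, map_one]

/-- `3¹² u(t²) = β (3¹² u)`, `β : F_{3m} → F_{3m·2}`. -/
theorem d2E_eq_beta (m : ℕ) [NeZero m] (h6 : 6 ∣ 3 * m * 2) :
    d2E E (3 * m * 2) h6 = βE E (3 * m) 2 (dE E (3 * m) 3 (dvd_mul_right 3 m)) := by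
  apply Subtype.ext
  rw [coe_d2E, coe_heckeBetaBar, Fermat.Agent.S36.H438.coe_dE]
  have hX : (3 : LaurentSeries ℤ) ^ 12 * qExpand ℤ 2 (unitL ℤ 3)
      = qExpand ℤ 2 (((3 : ℕ) : LaurentSeries ℤ) ^ 12 * unitL ℤ 3) := by
    rw [map_mul, map_pow, map_natCast]
    norm_num
  rw [hX]
  exact coeffMap_qExpand _ 2 _

/-- `W (3¹² u(t²)) = u'(t^m)` in `t`-expansions, level `N = 3 * m * 2`. -/
theorem coe_fricke_d2E (m : ℕ) [NeZero m] (h6 : 6 ∣ 3 * m * 2)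
    (W : FE E (3 * m * 2) ≃ₐ[E] FE E (3 * m * 2)) (hW : IsFricke E (3 * m * 2) W) :
    ((W (d2E E (3 * m * 2) h6) : FE E (3 * m * 2)) : LaurentSeries E)
      = castE E (qExpand ℤ m (H589.unitL' 3)) := by
  have h := (Fermat.Agent.A2.Mod.H751.frickeCompat E (3 * m) 2
    (Fermat.Agent.A2.Mod.H751.frickeE E (3 * m)) W
    (Fermat.Agent.A2.Mod.H751.isFricke_frickeE E (3 * m)) hW
    (dE E (3 * m) 3 (dvd_mul_right 3 m))).2
  rw [d2E_eq_beta, h, coe_heckeAlphaBar]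
  exact Fermat.Agent.S36.H438.coe_fricke_dE E (3 * m) 3 m rfl (dvd_mul_right 3 m)
    (Fermat.Agent.A2.Mod.H751.frickeE E (3 * m))
    (Fermat.Agent.A2.Mod.H751.isFricke_frickeE E (3 * m))

/-- `3¹² u(t²)` is a unit of `V₀ = V∞.comap W`, level `N = 3 * m * 2`. -/
theorem d2E_unit_vzero (m : ℕ) [NeZero m] (h6 : 6 ∣ 3 * m * 2)
    {V : ValuationSubring (FE E (3 * m * 2))}
    (W : FE E (3 * m * 2) ≃ₐ[E] FE E (3 * m * 2)) (hV : IsVinf P E (3 * m * 2) V)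
    (hW : IsFricke E (3 * m * 2) W) :
    W (d2E E (3 * m * 2) h6) ∈ V ∧ W (d2E E (3 * m * 2) h6)⁻¹ ∈ V := by
  have hc := coe_fricke_d2E E m h6 W hW
  refine ⟨Fermat.Agent.S36.H438.mem_vinf_of_coe_eq_castE P E hV hc, ?_⟩
  rw [map_inv₀]
  refine Fermat.Agent.S36.H438.mem_vinf_of_coe_eq_castE P E hV
    (X := qExpand ℤ m (unitL ℤ 3)) ?_
  rw [IntermediateField.coe_inv, hc]
  exact inv_eq_of_mul_eq_one_right (castE_qExpand_unitL'_mul E m)

/-- **UNIT-3 (2)**: `D = 3⁸ v⁻¹` is a unit of `V₀ = V∞.comap W`, any level `N` with `6 ∣ N`. -/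
theorem d3E_unit_vzero (N : ℕ) [NeZero N] (h6 : 6 ∣ N) {V : ValuationSubring (FE E N)}
    (W : FE E N ≃ₐ[E] FE E N) (hV : IsVinf P E N V) (hW : IsFricke E N W) :
    d3E E N h6 ∈ V.comap (W : FE E N →+* FE E N) ∧
      (d3E E N h6)⁻¹ ∈ V.comap (W : FE E N →+* FE E N) := by
  obtain ⟨m, rfl⟩ : ∃ m, N = 3 * m * 2 := by
    obtain ⟨k, hk⟩ := h6
    exact ⟨k, by omega⟩
  have hm : NeZero m := ⟨by
    rintro rfl
    exact NeZero.ne (3 * 0 * 2) (by norm_num)⟩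
  have h1 := Fermat.Agent.S36.H438.dE_unit_vzero P E (3 * m * 2) 3 (m * 2) (by ring)
    (three_dvd_of_six_dvd _ h6) W hV hW
  have h1a : W (dE E (3 * m * 2) 3 (three_dvd_of_six_dvd _ h6)) ∈ V := h1.1
  have h1b : W (dE E (3 * m * 2) 3 (three_dvd_of_six_dvd _ h6))⁻¹ ∈ V := h1.2
  obtain ⟨h2a, h2b⟩ := d2E_unit_vzero P E m h6 W hV hW
  constructor
  · show W _ ∈ V
    apply mem_of_pow_three_mem V
    rw [← map_pow, d3E_pow_three', map_mul]
    exact V.mul_mem _ _ h1a h2a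
  · show W _ ∈ V
    apply mem_of_pow_three_mem V
    rw [← map_pow, inv_pow, d3E_pow_three', mul_inv, map_mul]
    exact V.mul_mem _ _ h1b h2b

end Fricke

/-! ## 2. The package -/

section Package

variable (P : ValuationSubring Qb) (E : IntermediateField ℚ Qb)

/-- **Leaf UNIT-3, packaged at level `M * 3`, `2 ∣ M`** (the analogue of `S36.H438.mu_package`
for `q = 3` with the exponent `12` replaced by `8`, which is prime to `3`):
the unit pair `D = 3⁸ v⁻¹`, `D' = v`, `v = (η(τ)η(2τ)/(η(3τ)η(6τ)))⁸`, of the finite chart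
`B = chartAlg x`, `x = j · j_3`:  `D · D' = 3⁸`, `D' ∈ (V∞)ˣ`, `D ∈ (V₀)ˣ` for `V₀ = V∞.comap W`,
and at every place `V ⊇ E` of `F_{M·3}` with `j ∈ V` both are units. -/
theorem mu3_package (M : ℕ) [NeZero M] (h2 : 2 ∣ M) :
    ∃ D D' : FE E (M * 3),
      (D : LaurentSeries E) = castE E ((3 : LaurentSeries ℤ) ^ 8 * v3InvL) ∧
      (D' : LaurentSeries E) = castE E v3L ∧
      D * D' = algebraMap E (FE E (M * 3)) ((3 : E) ^ 8) ∧
      D ∈ chartAlg P E (M * 3) (xE E M 3) ∧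
      D' ∈ chartAlg P E (M * 3) (xE E M 3) ∧
      (∀ V : ValuationSubring (FE E (M * 3)), IsVinf P E (M * 3) V → D' ∈ V ∧ D'⁻¹ ∈ V) ∧
      (∀ (V : ValuationSubring (FE E (M * 3))) (W : FE E (M * 3) ≃ₐ[E] FE E (M * 3)),
        IsVinf P E (M * 3) V → IsFricke E (M * 3) W →
          D ∈ V.comap (W : FE E (M * 3) →+* FE E (M * 3)) ∧
          D⁻¹ ∈ V.comap (W : FE E (M * 3) →+* FE E (M * 3))) ∧
      (∀ V : ValuationSubring (FE E (M * 3)), (∀ e : E, algebraMap E (FE E (M * 3)) e ∈ V) →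
        jE E (M * 3) 1 (one_dvd _) ∈ V → (D ∈ V ∧ D⁻¹ ∈ V) ∧ (D' ∈ V ∧ D'⁻¹ ∈ V)) :=
  have h6 : 6 ∣ M * 3 := six_dvd_mul_three M h2
  ⟨d3E E (M * 3) h6, vE E (M * 3) h6, coe_d3E E (M * 3) h6, coe_vE E (M * 3) h6,
    d3E_mul_vE E (M * 3) h6, d3E_mem_chartAlg P E M h2, vE_mem_chartAlg P E M h2,
    fun _ hV => vE_unit_vinf P E (M * 3) h6 hV,
    fun _ W hV hW => d3E_unit_vzero P E (M * 3) h6 W hV hW,
    fun V hE hj => pair_unit_of_j_mem E (M * 3) h6 V hE hj⟩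

end Package

/-! ## 3. Reduction modulo `3` -/

section Reduction

/-- The weight-`8` cusp form of level `2`: `t ∏ (1 - tⁿ)⁸ (1 - t²ⁿ)⁸`. -/
def f8L : LaurentSeries ℤ := HahnSeries.single (1 : ℤ) (1 : ℤ) * e8L * qExpand ℤ 2 e8L

/-- Over `ZMod 3`: `v⁻¹ = f₈²`. -/
theorem v3InvL_zmod_eq_sq :
    coeffMap (Int.castRingHom (ZMod 3)) v3InvL
      = coeffMap (Int.castRingHom (ZMod 3)) f8L ^ 2 := by
  have hp3 : Fact (Nat.Prime 3) := ⟨Nat.prime_three⟩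
  have hq3 : ∀ X : LaurentSeries ℤ, coeffMap (Int.castRingHom (ZMod 3)) (qExpand ℤ 3 X)
      = coeffMap (Int.castRingHom (ZMod 3)) X ^ 3 := by
    intro X
    rw [coeffMap_qExpand, Fermat.Agent.A2.H528.qExpand_eq_pow_zmod]
  have h6 : qExpand ℤ 6 e8L = qExpand ℤ 3 (qExpand ℤ 2 e8L) := by
    rw [qExpand_qExpand]
  have hs : (HahnSeries.single (2 : ℤ) (1 : ℤ) : LaurentSeries ℤ)
      = HahnSeries.single (1 : ℤ) (1 : ℤ) ^ 2 := by
    rw [pow_two, HahnSeries.single_mul_single]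
    norm_num
  have hinv : coeffMap (Int.castRingHom (ZMod 3)) e8L *
      coeffMap (Int.castRingHom (ZMod 3)) e8InvL = 1 := by
    rw [← map_mul, e8L_mul_e8InvL, map_one]
  have hinv2 : coeffMap (Int.castRingHom (ZMod 3)) (qExpand ℤ 2 e8L) *
      coeffMap (Int.castRingHom (ZMod 3)) (qExpand ℤ 2 e8InvL) = 1 := by
    rw [← map_mul, ← map_mul, e8L_mul_e8InvL, map_one, map_one]
  rw [v3InvL, f8L, h6, hs]
  simp only [map_mul, map_pow, hq3]
  generalize coeffMap (Int.castRingHom (ZMod 3)) e8L = a at hinv ⊢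
  generalize coeffMap (Int.castRingHom (ZMod 3)) e8InvL = a' at hinv ⊢
  generalize coeffMap (Int.castRingHom (ZMod 3)) (qExpand ℤ 2 e8L) = b at hinv2 ⊢
  generalize coeffMap (Int.castRingHom (ZMod 3)) (qExpand ℤ 2 e8InvL) = b' at hinv2 ⊢
  generalize coeffMap (Int.castRingHom (ZMod 3)) (HahnSeries.single (1 : ℤ) (1 : ℤ)) = s
  calc s ^ 2 * a' * b' * a ^ 3 * b ^ 3
      = s ^ 2 * a ^ 2 * b ^ 2 * (a * a') * (b * b') := by ring
    _ = (s * a * b) ^ 2 := by rw [hinv, hinv2]; ring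

/-- **In characteristic `3`** (any coefficient ring `k`): `v⁻¹ = f₈²`,
`f₈ = t ∏ (1 - tⁿ)⁸ (1 - t²ⁿ)⁸`. -/
theorem castK_v3InvL_eq_sq (k : Type*) [CommRing k] [CharP k 3] :
    coeffMap (Int.castRingHom k) v3InvL = coeffMap (Int.castRingHom k) f8L ^ 2 := by
  have h := congrArg (coeffMap (ZMod.castHom (dvd_refl 3) k)) v3InvL_zmod_eq_sq
  rw [map_pow, coeffMap_coeffMap, coeffMap_coeffMap] at h
  have e : (ZMod.castHom (dvd_refl 3) k).comp (Int.castRingHom (ZMod 3)) = Int.castRingHom k :=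
    RingHom.ext_int _ _
  rwa [coeffMap_congr e, coeffMap_congr e] at h

end Reduction

end Fermat.Agent.S59.Unit3.H461
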