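import Fermat.Agent.S59.Unit3.H461.UnitPairGen
import Fermat.Agent.S59.Unit3.H461.Unit3Pkg

/-!
# S59 / leaf UNIT-3, part 9: the unit PAIR at `p = 3` in cut form (helper461)

* `pkgAt_three`      : `mu3_package` as a `PkgAt P E M 3 8 v3L` (`2 ∣ M`);
* `unitPairAt_three` : VERBATIM the body of `Ribet.H912.UnitPairAt A M 3 8 v3L` (generic TAME of
                       helper912): at every level `E`, uniformiser `w`, cuts `p₁`, `p₂`:
                       `D · D' = w ^ (8 e)`, `3 ~ w ^ e`, `D ∉ p₁`, `D' ∉ p₂`, `D = v3L`;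
* `unit3_bar`        : the unit over `ℚ̄`: `DQ ∈ F(3 M)`, `DQ = v3InvL`, `DQ ≠ 0`,
                       `DQ · castE E v3L = 1` for every `E` (inputs `DQ, hDQ0, hDQ` of
                       `Ribet.H912.tameCoreGen`).
-/

set_option autoImplicit false
set_option synthInstance.maxHeartbeats 400000
set_option maxHeartbeats 1600000
set_option linter.unusedSectionVars false

noncomputable section

namespace Fermat.Agent.S59.Unit3.H461

open ModularCurve HahnSeries
open Fermat.Agent.A2.Mod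

/-- `mu3_package` as a package of exponent `8` with expansion `v3L`. -/
theorem pkgAt_three (P : ValuationSubring Qb) (E : IntermediateField ℚ Qb) (M : ℕ) [NeZero M]
    (h2 : 2 ∣ M) : PkgAt P E M 3 8 v3L := by
  obtain ⟨D, D', -, hexp, hmul, hD, hD', hVu, hV0u, -⟩ := mu3_package P E M h2
  refine ⟨D, D', hexp, ?_, hD, hD', hVu, hV0u⟩
  rw [hmul]
  norm_num

/-- **The unit pair at `p = 3`, exponent `8`** (`3 ∤ 8`), level `M * 3`, `2 ∣ M`:
VERBATIM the body of `Ribet.H912.UnitPairAt A M 3 8 v3L`. -/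
theorem unitPairAt_three (A : ValuationSubring Qb) (M : ℕ) [NeZero M] (h2 : 2 ∣ M) :
    ∀ (E : IntermediateField ℚ Qb) (w : RE A E), Setting A E M 3 w → Fermat.Agent.A2.GoodField A E →
      ∀ (V : ValuationSubring (FE E (M * 3)))
        (W : FE E (M * 3) ≃ₐ[E] FE E (M * 3)),
        IsVinf A E (M * 3) V → IsFricke E (M * 3) W →
        ∀ p₁ p₂ : Ideal (chartAlg A E (M * 3) (xE E M 3)),
          IsCut A E (M * 3) w V (chartAlg A E (M * 3) (xE E M 3)) p₁ →
          IsCut A E (M * 3) w (V.comap (W : FE E (M * 3) →+* FE E (M * 3)))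
            (chartAlg A E (M * 3) (xE E M 3)) p₂ →
          ∃ (e : ℕ) (D D' : chartAlg A E (M * 3) (xE E M 3)), 0 < e ∧
            Associated ((3 : ℕ) : RE A E) (w ^ e) ∧
            D * D' = algebraMap (RE A E) (chartAlg A E (M * 3) (xE E M 3)) w ^
              (8 * e) ∧
            D ∉ p₁ ∧ D' ∉ p₂ ∧
            (((D : FE E (M * 3)) : FE E (M * 3)) : LaurentSeries E) =
              Fermat.Agent.S36.H438.castE E v3L := by
  intro E w hS _ V W hV hW p₁ p₂ hc₁ hc₂
  exact exists_unitPair_cut_of_pkg (pkgAt_three A E M h2) hS hV hW p₁ p₂ hc₁ hc₂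

/-- The same at a level of known ramification index `e₀` (`3 ~ w ^ e₀`): exponent `8 e₀`. -/
theorem unitPairAt_three_ram (A : ValuationSubring Qb) (E : IntermediateField ℚ Qb) (M : ℕ)
    [NeZero M] (h2 : 2 ∣ M) {w : RE A E} (hS : Setting A E M 3 w) {e₀ : ℕ}
    (hram : Associated ((3 : ℕ) : RE A E) (w ^ e₀))
    {V : ValuationSubring (FE E (M * 3))} {W : FE E (M * 3) ≃ₐ[E] FE E (M * 3)}
    (hV : IsVinf A E (M * 3) V) (hW : IsFricke E (M * 3) W)
    (p₁ p₂ : Ideal (chartAlg A E (M * 3) (xE E M 3)))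
    (hc₁ : IsCut A E (M * 3) w V (chartAlg A E (M * 3) (xE E M 3)) p₁)
    (hc₂ : IsCut A E (M * 3) w (V.comap (W : FE E (M * 3) →+* FE E (M * 3)))
      (chartAlg A E (M * 3) (xE E M 3)) p₂) :
    ∃ (D D' : chartAlg A E (M * 3) (xE E M 3)),
      D * D' = algebraMap (RE A E) (chartAlg A E (M * 3) (xE E M 3)) w ^ (8 * e₀) ∧
      D ∉ p₁ ∧ D' ∉ p₂ ∧
      (((D : FE E (M * 3)) : FE E (M * 3)) : LaurentSeries E) =
        Fermat.Agent.S36.H438.castE E v3L :=
  exists_unitPair_ram_of_pkg (pkgAt_three A E M h2) hS hram hV hW p₁ p₂ hc₁ hc₂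

/-! ## The unit over `ℚ̄` -/

theorem coeffMap_bar_v3_mul :
    coeffMap (Int.castRingHom Qb) v3InvL * coeffMap (Int.castRingHom Qb) v3L = 1 := by
  rw [← map_mul, mul_comm, v3L_mul_v3InvL, map_one]

theorem v3L_bar_mem (N : ℕ) [NeZero N] (h6 : 6 ∣ N) :
    coeffMap (Int.castRingHom Qb) v3L ∈ laurentBaseChange Qb (modularFunctionFieldFull N) :=
  Fermat.Agent.S36.H438.laurentBaseChange_mono_h438 Qb (full_degeneracy_le h6)
    (v3L_mem_of_embedding (K := Qb) Fermat.Agent.S24.H997.ιK)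

theorem v3InvL_bar_mem (N : ℕ) [NeZero N] (h6 : 6 ∣ N) :
    coeffMap (Int.castRingHom Qb) v3InvL ∈ laurentBaseChange Qb (modularFunctionFieldFull N) := by
  have h : coeffMap (Int.castRingHom Qb) v3InvL = (coeffMap (Int.castRingHom Qb) v3L)⁻¹ :=
    eq_inv_of_mul_eq_one_left coeffMap_bar_v3_mul
  rw [h]
  exact inv_mem (v3L_bar_mem N h6)

/-- **The unit over `ℚ̄`** (inputs `DQ`, `hDQ0`, `hDQ` of `Ribet.H912.tameCoreGen` with
`X₀ = v3L`): `DQ = v⁻¹ ∈ F(N)`, `6 ∣ N`. -/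
theorem unit3_bar (N : ℕ) [NeZero N] (h6 : 6 ∣ N) :
    ∃ DQ : laurentBaseChange Qb (modularFunctionFieldFull N),
      (DQ : LaurentSeries Qb) = coeffMap (Int.castRingHom Qb) v3InvL ∧ DQ ≠ 0 ∧
      ∀ E : IntermediateField ℚ Qb, (DQ : LaurentSeries Qb) *
        coeffMap (algebraMap E Qb) (Fermat.Agent.S36.H438.castE E v3L) = 1 := by
  refine ⟨⟨coeffMap (Int.castRingHom Qb) v3InvL, v3InvL_bar_mem N h6⟩, rfl, ?_, ?_⟩
  · intro h
    have h1 := congrArg Subtype.val h
    have h2 := coeffMap_bar_v3_mul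
    rw [show coeffMap (Int.castRingHom Qb) v3InvL = 0 from h1, zero_mul] at h2
    exact zero_ne_one h2
  · intro E
    rw [Fermat.Agent.S36.H438.coeffMap_castE]
    exact coeffMap_bar_v3_mul

end Fermat.Agent.S59.Unit3.H461
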