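import Mathlib

/-!
# S59 / leaf UNIT-3 (p = 3 wall), part 1: the multiplier of `η⁸` (helper461)

`η⁸` is a modular form of weight `4` for `SL₂(ℤ)` with a character of order `3`:

  `η⁸(γ τ) = ω ^ χ₀(γ) · (c τ + d)⁴ · η⁸(τ)`,  `ω = e^{2πi/3}`,
  `χ₀(a, b; c, d) = (a + d) c - b d (c² - 1)  (mod 3)`.

Proof: Mathlib's transformation laws of `η` under `S` and `T`, `SL₂(ℤ) = ⟨S, T⟩` and
`81`-case checks in `ZMod 3`.
-/

set_option autoImplicit false

noncomputable section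

open Complex ModularForm
open UpperHalfPlane hiding I
open scoped MatrixGroups Real Manifold

namespace Fermat.Agent.S59.Unit3.H461

/-! ## The character, arithmetic side -/

/-- The polynomial `(a + d) c - b d (c² - 1)` on `ZMod 3`. -/
def chiF (a b c d : ZMod 3) : ZMod 3 := (a + d) * c - b * d * (c ^ 2 - 1)

theorem chiF_mul_T : ∀ a b c d : ZMod 3, a * d - b * c = 1 →
    chiF a (a + b) c (c + d) = chiF a b c d + 1 := by decide

theorem chiF_mul_T_inv : ∀ a b c d : ZMod 3, a * d - b * c = 1 →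
    chiF a (b - a) c (d - c) = chiF a b c d - 1 := by decide

theorem chiF_mul_S : ∀ a b c d : ZMod 3, a * d - b * c = 1 →
    chiF b (-a) d (-c) = chiF a b c d := by decide

theorem chiF_mul_S_inv : ∀ a b c d : ZMod 3, a * d - b * c = 1 →
    chiF (-b) a (-d) c = chiF a b c d := by decide

/-- The exponent of the multiplier of `η⁸`. -/
def chi0 (γ : SL(2, ℤ)) : ZMod 3 :=
  chiF ((γ 0 0 : ℤ) : ZMod 3) ((γ 0 1 : ℤ) : ZMod 3) ((γ 1 0 : ℤ) : ZMod 3)
    ((γ 1 1 : ℤ) : ZMod 3)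

theorem det_zmod (γ : SL(2, ℤ)) :
    ((γ 0 0 : ℤ) : ZMod 3) * ((γ 1 1 : ℤ) : ZMod 3) -
      ((γ 0 1 : ℤ) : ZMod 3) * ((γ 1 0 : ℤ) : ZMod 3) = 1 := by
  have h := γ.det_coe
  rw [Matrix.det_fin_two] at h
  have h2 := congrArg (Int.cast : ℤ → ZMod 3) h
  push_cast at h2
  exact h2

theorem coe_mul_T (γ : SL(2, ℤ)) : (↑(γ * ModularGroup.T) : Matrix (Fin 2) (Fin 2) ℤ) =
    !![γ 0 0, γ 0 0 + γ 0 1; γ 1 0, γ 1 0 + γ 1 1] := by
  rw [Matrix.SpecialLinearGroup.coe_mul, ModularGroup.coe_T]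
  ext i j
  fin_cases i <;> fin_cases j <;> simp [Matrix.mul_apply, Fin.sum_univ_two]

theorem coe_mul_T_inv (γ : SL(2, ℤ)) : (↑(γ * ModularGroup.T⁻¹) : Matrix (Fin 2) (Fin 2) ℤ) =
    !![γ 0 0, γ 0 1 - γ 0 0; γ 1 0, γ 1 1 - γ 1 0] := by
  rw [Matrix.SpecialLinearGroup.coe_mul, ModularGroup.coe_T_inv]
  ext i j
  fin_cases i <;> fin_cases j <;> simp [Matrix.mul_apply, Fin.sum_univ_two] <;> ring

theorem coe_mul_S (γ : SL(2, ℤ)) : (↑(γ * ModularGroup.S) : Matrix (Fin 2) (Fin 2) ℤ) =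
    !![γ 0 1, -γ 0 0; γ 1 1, -γ 1 0] := by
  rw [Matrix.SpecialLinearGroup.coe_mul, ModularGroup.coe_S]
  ext i j
  fin_cases i <;> fin_cases j <;> simp [Matrix.mul_apply, Fin.sum_univ_two]

theorem coe_S_inv : (↑(ModularGroup.S⁻¹) : Matrix (Fin 2) (Fin 2) ℤ) = !![0, 1; -1, 0] := by
  rw [Matrix.SpecialLinearGroup.coe_inv, ModularGroup.coe_S, Matrix.adjugate_fin_two_of]
  simp

theorem coe_mul_S_inv (γ : SL(2, ℤ)) : (↑(γ * ModularGroup.S⁻¹) : Matrix (Fin 2) (Fin 2) ℤ) =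
    !![-γ 0 1, γ 0 0; -γ 1 1, γ 1 0] := by
  rw [Matrix.SpecialLinearGroup.coe_mul, coe_S_inv]
  ext i j
  fin_cases i <;> fin_cases j <;> simp [Matrix.mul_apply, Fin.sum_univ_two]

theorem chi0_one : chi0 1 = 0 := by
  simp [chi0, chiF]

theorem chi0_mul_T (γ : SL(2, ℤ)) : chi0 (γ * ModularGroup.T) = chi0 γ + 1 := by
  have h := chiF_mul_T _ _ _ _ (det_zmod γ)
  rw [chi0, chi0, ← h, coe_mul_T]
  simp

theorem chi0_mul_T_inv (γ : SL(2, ℤ)) : chi0 (γ * ModularGroup.T⁻¹) = chi0 γ - 1 := by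
  have h := chiF_mul_T_inv _ _ _ _ (det_zmod γ)
  rw [chi0, chi0, ← h, coe_mul_T_inv]
  simp

theorem chi0_mul_S (γ : SL(2, ℤ)) : chi0 (γ * ModularGroup.S) = chi0 γ := by
  have h := chiF_mul_S _ _ _ _ (det_zmod γ)
  rw [chi0, chi0, ← h, coe_mul_S]
  simp

theorem chi0_mul_S_inv (γ : SL(2, ℤ)) : chi0 (γ * ModularGroup.S⁻¹) = chi0 γ := by
  have h := chiF_mul_S_inv _ _ _ _ (det_zmod γ)
  rw [chi0, chi0, ← h, coe_mul_S_inv]
  simp

/-! ## The cube root of unity -/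

/-- `ω = e^{2πi/3}`. -/
def omega3 : ℂ := cexp (2 * π * I / 3)

theorem omega3_pow_three : omega3 ^ 3 = 1 := by
  rw [omega3, ← Complex.exp_nat_mul]
  have : ((3 : ℕ) : ℂ) * (2 * π * I / 3) = 2 * π * I := by push_cast; ring
  rw [this, Complex.exp_two_pi_mul_I]

theorem omega3_ne_zero : omega3 ≠ 0 := Complex.exp_ne_zero _

theorem omega3_pow_mod (m : ℕ) : omega3 ^ (m % 3) = omega3 ^ m := by
  conv_rhs => rw [← Nat.mod_add_div m 3]
  rw [pow_add, pow_mul, omega3_pow_three, one_pow, mul_one]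

/-- `ω ^ k`, `k ∈ ℤ/3`. -/
def omegaPow (k : ZMod 3) : ℂ := omega3 ^ k.val

theorem omegaPow_zero : omegaPow 0 = 1 := by simp [omegaPow]

theorem omegaPow_one : omegaPow 1 = omega3 := by
  simp [omegaPow, ZMod.val_one]

theorem omegaPow_add (k l : ZMod 3) : omegaPow (k + l) = omegaPow k * omegaPow l := by
  rw [omegaPow, omegaPow, omegaPow, ZMod.val_add, omega3_pow_mod, pow_add]

theorem omegaPow_ne_zero (k : ZMod 3) : omegaPow k ≠ 0 := pow_ne_zero _ omega3_ne_zero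

theorem omegaPow_sub_one (k : ZMod 3) : omegaPow (k - 1) * omega3 = omegaPow k := by
  rw [← omegaPow_one, ← omegaPow_add, sub_add_cancel]

theorem omegaPow_pow_three (k : ZMod 3) : omegaPow k ^ 3 = 1 := by
  rw [omegaPow, ← pow_mul, mul_comm, pow_mul, omega3_pow_three, one_pow]

/-! ## `η⁸` -/

/-- `η⁸` on the upper half plane. -/
def eta8 (τ : ℍ) : ℂ := η (τ : ℂ) ^ 8

theorem eta8_ne_zero (τ : ℍ) : eta8 τ ≠ 0 := pow_ne_zero _ (eta_ne_zero τ.2)

theorem eta8_pow_three (τ : ℍ) : eta8 τ ^ 3 = ModularForm.discriminant τ := by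
  rw [eta8, ← pow_mul]
  rfl

theorem eta_one_add (z : ℂ) : η (1 + z) = cexp (2 * π * I / 24) * η z := by
  have h1 : Function.Periodic.qParam 24 (1 + z) =
      cexp (2 * π * I / 24) * Function.Periodic.qParam 24 z := by
    simp only [Function.Periodic.qParam]
    rw [← Complex.exp_add]
    congr 1
    push_cast
    ring
  have h2 : ∀ n : ℕ, eta_q n (1 + z) = eta_q n z := by
    intro n
    simp only [eta_q, Function.Periodic.qParam]
    congr 1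
    have : 2 * (π : ℂ) * I * (1 + z) / ((1 : ℝ) : ℂ) = 2 * π * I * z / ((1 : ℝ) : ℂ) + 2 * π * I := by
      push_cast
      ring
    rw [this, Complex.exp_add, Complex.exp_two_pi_mul_I, mul_one]
  unfold ModularForm.eta
  rw [h1]
  simp only [h2]
  ring

theorem eta8_T (τ : ℍ) : eta8 (ModularGroup.T • τ) = omega3 * eta8 τ := by
  have hc : ((ModularGroup.T • τ : ℍ) : ℂ) = 1 + (τ : ℂ) := by
    rw [modular_T_smul]
    simp
  rw [eta8, hc, eta_one_add, mul_pow, eta8, omega3, ← Complex.exp_nat_mul]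
  congr 2
  push_cast
  ring

theorem csqrt_pow_eight {z : ℂ} (hz : z ≠ 0) : Complex.sqrt z ^ 8 = z ^ 4 := by
  rw [sqrt_eq_exp hz, ← Complex.exp_nat_mul]
  have : ((8 : ℕ) : ℂ) * (Complex.log z / 2) = ((4 : ℕ) : ℂ) * Complex.log z := by
    push_cast
    ring
  rw [this, Complex.exp_nat_mul, Complex.exp_log hz]

theorem csqrt_I_pow_eight : Complex.sqrt I ^ 8 = 1 := by
  rw [csqrt_pow_eight I_ne_zero, I_pow_four]

theorem eta8_S (τ : ℍ) : eta8 (ModularGroup.S • τ) = (τ : ℂ) ^ 4 * eta8 τ := by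
  have hc : ((ModularGroup.S • τ : ℍ) : ℂ) = -1 / (τ : ℂ) := by
    rw [modular_S_smul]
    simp [neg_div]
  have he : η (-1 / (τ : ℂ)) = (Complex.sqrt I)⁻¹ * (Complex.sqrt τ * η τ) := by
    simpa using eta_comp_eq_csqrt_I_inv τ.2
  rw [eta8, hc, he, mul_pow, mul_pow, inv_pow, csqrt_I_pow_eight, csqrt_pow_eight (ne_zero τ),
    eta8]
  simp

/-! ## The general transformation law -/

/-- The automorphy factor `c τ + d`. -/
def autJ (γ : SL(2, ℤ)) (τ : ℍ) : ℂ := ((γ 1 0 : ℤ) : ℂ) * (τ : ℂ) + ((γ 1 1 : ℤ) : ℂ)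

/-- The transformation law of `η⁸` at `γ`. -/
def Eta8Law (γ : SL(2, ℤ)) : Prop :=
  ∀ τ : ℍ, eta8 (γ • τ) = omegaPow (chi0 γ) * autJ γ τ ^ 4 * eta8 τ

theorem eta8Law_one : Eta8Law 1 := by
  intro τ
  rw [one_smul, chi0_one, omegaPow_zero, autJ]
  simp

theorem coe_T_smul (τ : ℍ) : ((ModularGroup.T • τ : ℍ) : ℂ) = 1 + (τ : ℂ) := by
  rw [modular_T_smul]
  simp

theorem coe_S_smul (τ : ℍ) : ((ModularGroup.S • τ : ℍ) : ℂ) = -1 / (τ : ℂ) := by
  rw [modular_S_smul]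
  simp [neg_div]

theorem autJ_mul_T (γ : SL(2, ℤ)) (τ : ℍ) :
    autJ (γ * ModularGroup.T) τ = autJ γ (ModularGroup.T • τ) := by
  rw [autJ, autJ, coe_T_smul, coe_mul_T]
  simp
  ring

theorem autJ_mul_S (γ : SL(2, ℤ)) (τ : ℍ) :
    autJ (γ * ModularGroup.S) τ = autJ γ (ModularGroup.S • τ) * (τ : ℂ) := by
  have hτ : (τ : ℂ) ≠ 0 := ne_zero τ
  rw [autJ, autJ, coe_S_smul, coe_mul_S]
  simp
  field_simp
  ring

theorem eta8Law_mul_T {γ : SL(2, ℤ)} (h : Eta8Law γ) : Eta8Law (γ * ModularGroup.T) := by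
  intro τ
  rw [mul_smul, h, eta8_T, chi0_mul_T, omegaPow_add, omegaPow_one, autJ_mul_T]
  ring

theorem eta8Law_mul_S {γ : SL(2, ℤ)} (h : Eta8Law γ) : Eta8Law (γ * ModularGroup.S) := by
  intro τ
  rw [mul_smul, h, eta8_S, chi0_mul_S, autJ_mul_S]
  ring

theorem coe_T_inv_smul (τ : ℍ) : ((ModularGroup.T⁻¹ • τ : ℍ) : ℂ) = (τ : ℂ) - 1 := by
  have h := ModularGroup.coe_T_zpow_smul_eq (z := τ) (n := -1)
  rw [zpow_neg_one] at h
  rw [h]
  push_cast
  ring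

theorem T_smul_T_inv_smul (τ : ℍ) : ModularGroup.T • (ModularGroup.T⁻¹ • τ) = τ := by
  rw [← mul_smul, mul_inv_cancel, one_smul]

theorem eta8_T_inv (τ : ℍ) : omega3 * eta8 (ModularGroup.T⁻¹ • τ) = eta8 τ := by
  rw [← eta8_T, T_smul_T_inv_smul]

theorem S_inv_smul (τ : ℍ) : ModularGroup.S⁻¹ • τ = ModularGroup.S • τ := by
  apply UpperHalfPlane.ext
  rw [coe_S_smul, UpperHalfPlane.coe_specialLinearGroup_apply, coe_S_inv]
  have hτ : (τ : ℂ) ≠ 0 := ne_zero τ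
  simp
  field_simp

theorem autJ_mul_T_inv (γ : SL(2, ℤ)) (τ : ℍ) :
    autJ (γ * ModularGroup.T⁻¹) τ = autJ γ (ModularGroup.T⁻¹ • τ) := by
  rw [autJ, autJ, coe_T_inv_smul, coe_mul_T_inv]
  simp
  ring

theorem autJ_mul_S_inv (γ : SL(2, ℤ)) (τ : ℍ) :
    autJ (γ * ModularGroup.S⁻¹) τ = -(autJ γ (ModularGroup.S⁻¹ • τ) * (τ : ℂ)) := by
  have hτ : (τ : ℂ) ≠ 0 := ne_zero τ
  rw [autJ, autJ, S_inv_smul, coe_S_smul, coe_mul_S_inv]
  simp
  field_simp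
  ring

theorem eta8Law_mul_T_inv {γ : SL(2, ℤ)} (h : Eta8Law γ) : Eta8Law (γ * ModularGroup.T⁻¹) := by
  intro τ
  rw [mul_smul, h, chi0_mul_T_inv, autJ_mul_T_inv, ← omegaPow_sub_one (chi0 γ)]
  have h2 := eta8_T_inv τ
  calc omegaPow (chi0 γ - 1) * omega3 * autJ γ (ModularGroup.T⁻¹ • τ) ^ 4 *
        eta8 (ModularGroup.T⁻¹ • τ)
      = omegaPow (chi0 γ - 1) * autJ γ (ModularGroup.T⁻¹ • τ) ^ 4 *
          (omega3 * eta8 (ModularGroup.T⁻¹ • τ)) := by ring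
    _ = _ := by rw [h2]

theorem eta8Law_mul_S_inv {γ : SL(2, ℤ)} (h : Eta8Law γ) : Eta8Law (γ * ModularGroup.S⁻¹) := by
  intro τ
  rw [mul_smul, h, chi0_mul_S_inv, autJ_mul_S_inv, S_inv_smul, eta8_S]
  ring

/-- **The transformation law of `η⁸`** under `SL₂(ℤ)`. -/
theorem eta8_smul (γ : SL(2, ℤ)) (τ : ℍ) :
    eta8 (γ • τ) = omegaPow (chi0 γ) * autJ γ τ ^ 4 * eta8 τ := by
  have hγ : γ ∈ Subgroup.closure ({ModularGroup.S, ModularGroup.T} : Set SL(2, ℤ)) := by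
    rw [SpecialLinearGroup.SL2Z_generators]
    trivial
  have key : Eta8Law γ := by
    induction hγ using Subgroup.closure_induction_right with
    | one => exact eta8Law_one
    | mul_right x _ y hy ih =>
      rcases hy with rfl | rfl
      · exact eta8Law_mul_S ih
      · exact eta8Law_mul_T ih
    | mul_inv_cancel x _ y hy ih =>
      rcases hy with rfl | rfl
      · exact eta8Law_mul_S_inv ih
      · exact eta8Law_mul_T_inv ih
  exact key τ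

theorem autJ_ne_zero (γ : SL(2, ℤ)) (τ : ℍ) : autJ γ τ ≠ 0 := by
  have := UpperHalfPlane.denom_ne_zero (γ : GL (Fin 2) ℝ) τ
  simpa [UpperHalfPlane.denom, autJ] using this

/-- `η⁸` is holomorphic on the upper half plane. -/
theorem mdifferentiable_eta8 : MDifferentiable 𝓘(ℂ) 𝓘(ℂ) eta8 := by
  rw [UpperHalfPlane.mdifferentiable_iff]
  have h : DifferentiableOn ℂ (fun z => η z ^ 8) upperHalfPlaneSet := fun z hz =>
    ((differentiableAt_eta_of_mem_upperHalfPlaneSet hz).pow 8).differentiableWithinAt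
  refine h.congr fun z hz => ?_
  have hz' : 0 < z.im := hz
  simp [eta8, ofComplex_apply_of_im_pos hz']

end Fermat.Agent.S59.Unit3.H461
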