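import Fermat.Agent.S59.Unit3.H461.Unit3Exp
import Fermat.Agent.S28.H88.Theta

/-!
# S59 / leaf UNIT-3 (p = 3 wall), part 4: the formal cube relation (helper461)

In `ℤ((t))`:  `v3L ^ 3 = u'(t) * u'(t²)` with `u' = unitL' 3 = Δ(t)/Δ(t³)`, and
`v3InvL ^ 3 = u(t) * u(t²)` with `u = unitL ℤ 3 = Δ(t³)/Δ(t)`.
-/

set_option autoImplicit false

noncomputable section

open ModularCurve HahnSeries

namespace Fermat.Agent.S59.Unit3.H461

open Fermat.Agent.S28 (deltaL deltaInvL unitL)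
open Fermat.Agent.S28.H589 (unitL')

/-- `∏ (1 - tⁿ)` as a Laurent series. -/
def e1L : LaurentSeries ℤ := HahnSeries.ofPowerSeries ℤ ℤ etaProd

/-- `∏ (1 - tⁿ)⁻¹` as a Laurent series. -/
def e1InvL : LaurentSeries ℤ := HahnSeries.ofPowerSeries ℤ ℤ etaInvP

theorem e8L_eq : e8L = e1L ^ 8 := by
  rw [e8L, e1L, map_pow]

theorem e8InvL_eq : e8InvL = e1InvL ^ 8 := by
  rw [e8InvL, e1InvL, map_pow]

theorem e1L_mul_e1InvL : e1L * e1InvL = 1 := by
  rw [e1L, e1InvL, ← map_mul, etaProd_mul_etaInvP, map_one]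

theorem dedekindEtaUnitInv_eq : dedekindEtaUnitInv = etaInvP ^ 24 := by
  have h1 : dedekindEtaUnit * etaInvP ^ 24 = 1 := by
    rw [dedekindEtaUnit, ← mul_pow, etaProd_mul_etaInvP, one_pow]
  calc dedekindEtaUnitInv = dedekindEtaUnitInv * (dedekindEtaUnit * etaInvP ^ 24) := by
        rw [h1, mul_one]
    _ = (dedekindEtaUnit * dedekindEtaUnitInv) * etaInvP ^ 24 := by ring
    _ = etaInvP ^ 24 := by rw [dedekindEtaUnit_mul_inv, one_mul]

theorem map_castInt_id (f : PowerSeries ℤ) : f.map (Int.castRingHom ℤ) = f := by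
  ext n
  simp

theorem deltaL_int : deltaL ℤ = HahnSeries.single (1 : ℤ) (1 : ℤ) * e1L ^ 24 := by
  rw [deltaL, map_castInt_id, dedekindEtaUnit, e1L, map_pow]

theorem deltaInvL_int : deltaInvL ℤ = HahnSeries.single (-1 : ℤ) (1 : ℤ) * e1InvL ^ 24 := by
  rw [deltaInvL, map_castInt_id, dedekindEtaUnitInv_eq, e1InvL, map_pow]

theorem unitL'_three_eq :
    unitL' 3 = HahnSeries.single (-2 : ℤ) (1 : ℤ) * e1L ^ 24 * qExpand ℤ 3 (e1InvL ^ 24) := by
  have hs : HahnSeries.single (1 : ℤ) (1 : ℤ) *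
      HahnSeries.single (((3 : ℕ) : ℤ) * (-1 : ℤ)) (1 : ℤ)
      = HahnSeries.single (-2 : ℤ) (1 : ℤ) := by
    rw [HahnSeries.single_mul_single]
    norm_num
  rw [unitL', deltaL_int, deltaInvL_int, map_mul, qExpand_single, ← hs]
  ring

theorem unitL_three_eq :
    unitL ℤ 3 = HahnSeries.single (2 : ℤ) (1 : ℤ) * e1InvL ^ 24 * qExpand ℤ 3 (e1L ^ 24) := by
  have hs : HahnSeries.single (((3 : ℕ) : ℤ) * (1 : ℤ)) (1 : ℤ) *
      HahnSeries.single (-1 : ℤ) (1 : ℤ)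
      = HahnSeries.single (2 : ℤ) (1 : ℤ) := by
    rw [HahnSeries.single_mul_single]
    norm_num
  rw [unitL, deltaL_int, deltaInvL_int, map_mul, qExpand_single, ← hs]
  ring

theorem single_pow_three (k : ℤ) :
    (HahnSeries.single k (1 : ℤ) : LaurentSeries ℤ) ^ 3 = HahnSeries.single (3 * k) (1 : ℤ) := by
  rw [pow_succ, pow_succ, pow_one, HahnSeries.single_mul_single, HahnSeries.single_mul_single]
  have h : k + k + k = 3 * k := by ring
  rw [h]
  norm_num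

/-- **The cube relation**: `v³ = u'(t) · u'(t²)`, `u' = Δ(t)/Δ(t³)`. -/
theorem v3L_pow_three : v3L ^ 3 = unitL' 3 * qExpand ℤ 2 (unitL' 3) := by
  have h6 : qExpand ℤ 2 (qExpand ℤ 3 (e1InvL ^ 24)) = qExpand ℤ 6 (e1InvL ^ 24) := by
    rw [qExpand_qExpand]
  have hs3 : (HahnSeries.single (-2 : ℤ) (1 : ℤ) : LaurentSeries ℤ) ^ 3
      = HahnSeries.single (-2 : ℤ) (1 : ℤ) *
        HahnSeries.single (((2 : ℕ) : ℤ) * (-2 : ℤ)) (1 : ℤ) := by
    rw [single_pow_three, HahnSeries.single_mul_single]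
    norm_num
  rw [unitL'_three_eq, map_mul, map_mul, qExpand_single, h6, v3L, e8L_eq, e8InvL_eq]
  simp only [mul_pow, map_pow, ← pow_mul, hs3]
  ring

/-- **The cube relation for the inverse**: `v⁻³ = u(t) · u(t²)`, `u = Δ(t³)/Δ(t)`. -/
theorem v3InvL_pow_three : v3InvL ^ 3 = unitL ℤ 3 * qExpand ℤ 2 (unitL ℤ 3) := by
  have h6 : qExpand ℤ 2 (qExpand ℤ 3 (e1L ^ 24)) = qExpand ℤ 6 (e1L ^ 24) := by
    rw [qExpand_qExpand]
  have hs3 : (HahnSeries.single (2 : ℤ) (1 : ℤ) : LaurentSeries ℤ) ^ 3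
      = HahnSeries.single (2 : ℤ) (1 : ℤ) *
        HahnSeries.single (((2 : ℕ) : ℤ) * (2 : ℤ)) (1 : ℤ) := by
    rw [single_pow_three, HahnSeries.single_mul_single]
    norm_num
  rw [unitL_three_eq, map_mul, map_mul, qExpand_single, h6, v3InvL, e8L_eq, e8InvL_eq]
  simp only [mul_pow, map_pow, ← pow_mul, hs3]
  ring

end Fermat.Agent.S59.Unit3.H461
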