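import Fermat.Agent.S59.Unit3.H461.Unit3Cube
import Fermat.Agent.S36.H438.Unit

/-!
# S59 / leaf UNIT-3 (p = 3 wall), part 5: the elements `v`, `v⁻¹` of `F_{N,E}`, `6 ∣ N`
(helper461)

* `vE E N h6 : FE E N`, `vE' E N h6 : FE E N` : the elements with `t`-expansions `v3L`, `v3InvL`;
* `u2E`, `u2E'` : the elements with expansions `u(t²)`, `u'(t²)`, `u = Δ(t³)/Δ(t)`;
* `vE_pow_three : v³ = u' · u'(t²)`, `vE'_pow_three : v⁻³ = u · u(t²)`;
* `d3E = 3⁸ v⁻¹`, `d3E_mul_vE : D · D' = 3⁸`;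
* `vE_unit_vinf` : `v` is a unit of the Gauss valuation ring `V∞`;
* `d3E_mem_of_j_mem`, `vE_mem_of_j_mem` : `D = 3⁸ v⁻¹` and `D' = v` lie in every valuation subring
  of `F_N` containing `j`; `vE_unit_of_j_mem` : both are units at every place over `E` where `j` is
  finite.
-/

set_option autoImplicit false
set_option synthInstance.maxHeartbeats 400000
set_option maxHeartbeats 1600000

noncomputable section

namespace Fermat.Agent.S59.Unit3.H461

open ModularCurve HahnSeries Polynomial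
open Fermat.Agent.A2.Mod Fermat.Agent.S28
open Fermat.Agent.S36.H438 (castE uE uE' dE)

/-! ## 1. The elements -/

section Elements

variable (E : IntermediateField ℚ Qb)

/-- An embedding of `E` into `ℂ`. -/
def embC : E →+* ℂ := (Fermat.Agent.S24.H997.ιK).comp (algebraMap E Qb)

theorem castE_v3L_mem_six : castE E v3L ∈ FE E 6 := v3L_mem_of_embedding (embC E)

theorem castE_v3L_mem (N : ℕ) [NeZero N] (h6 : 6 ∣ N) : castE E v3L ∈ FE E N :=
  Fermat.Agent.S36.H438.laurentBaseChange_mono_h438 E (full_degeneracy_le h6)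
    (castE_v3L_mem_six E)

theorem castE_v3L_mul_inv : castE E v3L * castE E v3InvL = 1 := by
  rw [← map_mul, v3L_mul_v3InvL, map_one]

theorem castE_v3InvL_eq_inv : castE E v3InvL = (castE E v3L)⁻¹ :=
  eq_inv_of_mul_eq_one_right (castE_v3L_mul_inv E)

theorem castE_v3InvL_mem (N : ℕ) [NeZero N] (h6 : 6 ∣ N) : castE E v3InvL ∈ FE E N := by
  rw [castE_v3InvL_eq_inv]
  exact inv_mem (castE_v3L_mem E N h6)

/-- `X(t) ∈ F_3 ⟹ X(t²) ∈ F_N`, `6 ∣ N`. -/
theorem castE_qExpand_two_mem {X : LaurentSeries ℤ} (hX : castE E X ∈ FE E 3)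
    (N : ℕ) [NeZero N] (h6 : 6 ∣ N) : castE E (qExpand ℤ 2 X) ∈ FE E N := by
  have h1 : castE E (qExpand ℤ 2 X)
      = ((heckeBetaBar E 3 2 ⟨castE E X, hX⟩ : FE E (3 * 2)) : LaurentSeries E) := by
    rw [coe_heckeBetaBar]
    exact coeffMap_qExpand _ 2 X
  rw [h1]
  have h32 : 3 * 2 ∣ N := by simpa using h6
  exact Fermat.Agent.S36.H438.laurentBaseChange_mono_h438 E (full_degeneracy_le h32)
    (SetLike.coe_mem _)

variable (N : ℕ) [NeZero N] (h6 : 6 ∣ N)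

/-- **The unit of level `6`** `v = (η(τ)η(2τ)/(η(3τ)η(6τ)))⁸` as an element of `F_{N,E}`. -/
def vE : FE E N := ⟨castE E v3L, castE_v3L_mem E N h6⟩

/-- Its inverse. -/
def vE' : FE E N := ⟨castE E v3InvL, castE_v3InvL_mem E N h6⟩

/-- `u(t²)`, `u = Δ(t³)/Δ(t)`. -/
def u2E : FE E N :=
  ⟨castE E (qExpand ℤ 2 (unitL ℤ 3)),
    castE_qExpand_two_mem E (Fermat.Agent.S36.H438.castE_unitL_mem_level E 3) N h6⟩

/-- `u'(t²)`, `u' = Δ(t)/Δ(t³)`. -/
def u2E' : FE E N :=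
  ⟨castE E (qExpand ℤ 2 (H589.unitL' 3)),
    castE_qExpand_two_mem E (Fermat.Agent.S36.H438.castE_unitL'_mem E 3 3 dvd_rfl) N h6⟩

@[simp] theorem coe_vE : ((vE E N h6 : FE E N) : LaurentSeries E) = castE E v3L := rfl

@[simp] theorem coe_vE' : ((vE' E N h6 : FE E N) : LaurentSeries E) = castE E v3InvL := rfl

@[simp] theorem coe_u2E :
    ((u2E E N h6 : FE E N) : LaurentSeries E) = castE E (qExpand ℤ 2 (unitL ℤ 3)) := rfl

@[simp] theorem coe_u2E' :
    ((u2E' E N h6 : FE E N) : LaurentSeries E) = castE E (qExpand ℤ 2 (H589.unitL' 3)) := rfl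

theorem vE_mul_vE' : vE E N h6 * vE' E N h6 = 1 :=
  Subtype.ext (castE_v3L_mul_inv E)

theorem vE_ne_zero : vE E N h6 ≠ 0 := fun h => by
  have := vE_mul_vE' E N h6
  rw [h, zero_mul] at this
  exact zero_ne_one this

theorem vE'_ne_zero : vE' E N h6 ≠ 0 := fun h => by
  have := vE_mul_vE' E N h6
  rw [h, mul_zero] at this
  exact zero_ne_one this

theorem vE'_eq_inv : vE' E N h6 = (vE E N h6)⁻¹ :=
  eq_inv_of_mul_eq_one_right (vE_mul_vE' E N h6)

theorem vE_inv : (vE E N h6)⁻¹ = vE' E N h6 := (vE'_eq_inv E N h6).symm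

theorem vE'_inv : (vE' E N h6)⁻¹ = vE E N h6 := by
  rw [vE'_eq_inv, inv_inv]

theorem u2E_mul_u2E' : u2E E N h6 * u2E' E N h6 = 1 := by
  apply Subtype.ext
  show castE E (qExpand ℤ 2 (unitL ℤ 3)) * castE E (qExpand ℤ 2 (H589.unitL' 3)) = 1
  rw [← map_mul, ← map_mul, Fermat.Agent.S36.H438.unitL_mul_unitL', map_one, map_one]

include h6 in
omit [NeZero N] in
theorem three_dvd_of_six_dvd : 3 ∣ N := Dvd.dvd.trans (by norm_num) h6

include h6 in
omit [NeZero N] in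
theorem two_dvd_of_six_dvd : 2 ∣ N := Dvd.dvd.trans (by norm_num) h6

/-- **The cube relation** in `F_{N,E}`: `v³ = u' · u'(t²)`. -/
theorem vE_pow_three :
    vE E N h6 ^ 3 = uE' E N 3 (three_dvd_of_six_dvd N h6) * u2E' E N h6 := by
  apply Subtype.ext
  show (castE E v3L) ^ 3 = castE E (H589.unitL' 3) * castE E (qExpand ℤ 2 (H589.unitL' 3))
  rw [← map_pow, v3L_pow_three, map_mul]

/-- **The cube relation** for the inverse: `v⁻³ = u · u(t²)`. -/
theorem vE'_pow_three :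
    vE' E N h6 ^ 3 = uE E N 3 (three_dvd_of_six_dvd N h6) * u2E E N h6 := by
  apply Subtype.ext
  show (castE E v3InvL) ^ 3 = castE E (unitL ℤ 3) * castE E (qExpand ℤ 2 (unitL ℤ 3))
  rw [← map_pow, v3InvL_pow_three, map_mul]

/-- `D = 3⁸ v⁻¹`. -/
def d3E : FE E N := algebraMap E (FE E N) ((3 : E) ^ 8) * vE' E N h6

theorem coe_d3E :
    ((d3E E N h6 : FE E N) : LaurentSeries E)
      = castE E ((3 : LaurentSeries ℤ) ^ 8 * v3InvL) := by
  show algebraMap E (LaurentSeries E) ((3 : E) ^ 8) * castE E v3InvL = _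
  rw [map_mul, map_pow, map_pow, map_ofNat, map_ofNat]

/-- **The unit pair**: `D · D' = 3⁸`. -/
theorem d3E_mul_vE : d3E E N h6 * vE E N h6 = algebraMap E (FE E N) ((3 : E) ^ 8) := by
  rw [d3E, mul_assoc, mul_comm (vE' E N h6), vE_mul_vE', mul_one]

theorem three_pow_ne_zero (n : ℕ) : ((3 : E) ^ n) ≠ 0 := pow_ne_zero _ (by norm_num)

theorem d3E_ne_zero : d3E E N h6 ≠ 0 :=
  mul_ne_zero ((map_ne_zero_iff _ (algebraMap E (FE E N)).injective).mpr (three_pow_ne_zero E 8))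
    (vE'_ne_zero E N h6)

theorem d3E_inv :
    (d3E E N h6)⁻¹ = algebraMap E (FE E N) ((3 : E) ^ 8)⁻¹ * vE E N h6 := by
  rw [d3E, mul_inv, vE'_inv, map_inv₀]

/-- `D³ = (3¹² u) · (3¹² u(t²))`. -/
theorem d3E_pow_three :
    d3E E N h6 ^ 3 = dE E N 3 (three_dvd_of_six_dvd N h6) *
      (algebraMap E (FE E N) ((3 : E) ^ 12) * u2E E N h6) := by
  rw [d3E, mul_pow, vE'_pow_three, dE, ← map_pow]
  have h : ((3 : E) ^ 8) ^ 3 = (3 : E) ^ 12 * (3 : E) ^ 12 := by ring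
  rw [h, map_mul]
  push_cast
  ring

end Elements

/-! ## 2. `v` is a unit of the Gauss valuation ring `V∞` -/

section Gauss

variable (P : ValuationSubring Qb) (E : IntermediateField ℚ Qb) (N : ℕ) [NeZero N] (h6 : 6 ∣ N)

/-- **UNIT-3 (1)**: `D' = v` is a unit of `V∞`. -/
theorem vE_unit_vinf {V : ValuationSubring (FE E N)} (hV : IsVinf P E N V) :
    vE E N h6 ∈ V ∧ (vE E N h6)⁻¹ ∈ V := by
  refine ⟨Fermat.Agent.S36.H438.mem_vinf_of_coe_eq_castE P E hV (coe_vE E N h6), ?_⟩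
  rw [vE_inv]
  exact Fermat.Agent.S36.H438.mem_vinf_of_coe_eq_castE P E hV (coe_vE' E N h6)

end Gauss

end Fermat.Agent.S59.Unit3.H461
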