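import Fermat.Agent.S59.Unit3.H461.Unit3Fun
import Fermat.Agent.S29.H882.MeroPrim
import Fermat.Agent.S29.H882.Inter
import Fermat.Agent.S28.H589.UnitPoly

/-!
# S59 / leaf UNIT-3 (p = 3 wall), part 3: the `q`-expansion of `v` and the function field
(helper461)

`v3L = t⁻² ∏ₙ ((1 - tⁿ)(1 - t²ⁿ) / ((1 - t³ⁿ)(1 - t⁶ⁿ)))⁸ ∈ ℤ((t))` is the `q`-expansion of
`vFun`; hence (MERO, helper882) it lies in the function field of `X₀(6)` over `ℂ`, and (descent)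
over every field `K ⊆ ℂ`.
-/

set_option autoImplicit false

noncomputable section

open Complex ModularForm CongruenceSubgroup ModularCurve HahnSeries
open UpperHalfPlane hiding I
open scoped MatrixGroups Real Manifold

namespace Fermat.Agent.S59.Unit3.H461

open Fermat.Agent.S28.H589 (scaleH scaleH_coe unitFun unitFun' hasTExp_comp_scaleH iotaC)
open Fermat.Agent.S28.H565 (HasTExp HasPExp eulerFun etaProdC etaInvC hasPExp_eulerFun
  hasPExp_eulerFun_pow_inv eulerFun_ne_zero etaProdC_pow_mul_etaInvC)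
open Fermat.Agent.S24.H648 (goodRing ExpGrowth)

local notation "𝕢" => Function.Periodic.qParam

/-! ## The formal series -/

/-- The formal inverse of `∏ (1 - tⁿ)`. -/
def etaInvP : PowerSeries ℤ := dedekindEtaUnitInv * etaProd ^ 23

theorem etaProd_mul_etaInvP : etaProd * etaInvP = 1 := by
  rw [etaInvP]
  calc etaProd * (dedekindEtaUnitInv * etaProd ^ 23)
      = etaProd ^ 24 * dedekindEtaUnitInv := by ring
    _ = 1 := dedekindEtaUnit_mul_inv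

/-- `∏ (1 - tⁿ)⁸`. -/
def e8L : LaurentSeries ℤ := HahnSeries.ofPowerSeries ℤ ℤ (etaProd ^ 8)

/-- `∏ (1 - tⁿ)⁻⁸`. -/
def e8InvL : LaurentSeries ℤ := HahnSeries.ofPowerSeries ℤ ℤ (etaInvP ^ 8)

theorem e8L_mul_e8InvL : e8L * e8InvL = 1 := by
  rw [e8L, e8InvL, ← map_mul, ← mul_pow, etaProd_mul_etaInvP, one_pow, map_one]

/-- **The unit of level `6`**:
`v = t⁻² ∏ₙ ((1 - tⁿ)(1 - t²ⁿ) / ((1 - t³ⁿ)(1 - t⁶ⁿ)))⁸`. -/
def v3L : LaurentSeries ℤ :=
  HahnSeries.single (-2 : ℤ) (1 : ℤ) * e8L * qExpand ℤ 2 e8L * qExpand ℤ 3 e8InvL *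
    qExpand ℤ 6 e8InvL

/-- Its inverse `t² ∏ₙ ((1 - t³ⁿ)(1 - t⁶ⁿ) / ((1 - tⁿ)(1 - t²ⁿ)))⁸`. -/
def v3InvL : LaurentSeries ℤ :=
  HahnSeries.single (2 : ℤ) (1 : ℤ) * e8InvL * qExpand ℤ 2 e8InvL * qExpand ℤ 3 e8L *
    qExpand ℤ 6 e8L

theorem v3L_mul_v3InvL : v3L * v3InvL = 1 := by
  have h1 : HahnSeries.single (-2 : ℤ) (1 : ℤ) * HahnSeries.single (2 : ℤ) (1 : ℤ) = 1 := by
    rw [HahnSeries.single_mul_single]
    simp
  have h2 : qExpand ℤ 2 e8L * qExpand ℤ 2 e8InvL = 1 := by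
    rw [← map_mul, e8L_mul_e8InvL, map_one]
  have h3 : qExpand ℤ 3 e8InvL * qExpand ℤ 3 e8L = 1 := by
    rw [← map_mul, mul_comm, e8L_mul_e8InvL, map_one]
  have h6 : qExpand ℤ 6 e8InvL * qExpand ℤ 6 e8L = 1 := by
    rw [← map_mul, mul_comm, e8L_mul_e8InvL, map_one]
  rw [v3L, v3InvL]
  calc HahnSeries.single (-2 : ℤ) (1 : ℤ) * e8L * qExpand ℤ 2 e8L * qExpand ℤ 3 e8InvL *
        qExpand ℤ 6 e8InvL *
        (HahnSeries.single (2 : ℤ) (1 : ℤ) * e8InvL * qExpand ℤ 2 e8InvL * qExpand ℤ 3 e8L *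
          qExpand ℤ 6 e8L)
      = (HahnSeries.single (-2 : ℤ) (1 : ℤ) * HahnSeries.single (2 : ℤ) (1 : ℤ)) *
          (e8L * e8InvL) * (qExpand ℤ 2 e8L * qExpand ℤ 2 e8InvL) *
          (qExpand ℤ 3 e8InvL * qExpand ℤ 3 e8L) * (qExpand ℤ 6 e8InvL * qExpand ℤ 6 e8L) := by
        ring
    _ = 1 := by rw [h1, e8L_mul_e8InvL, h2, h3, h6]; simp

/-! ## The analytic expansion -/

/-- The Euler function of `τ`. -/
def eulerT (τ : ℍ) : ℂ := eulerFun (𝕢 1 (τ : ℂ))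

theorem eulerT_ne_zero (τ : ℍ) : eulerT τ ≠ 0 :=
  eulerFun_ne_zero (Function.Periodic.norm_qParam_lt_one one_pos τ.im_pos)

theorem eta_eq_eulerT (τ : ℍ) : η (τ : ℂ) = 𝕢 24 (τ : ℂ) * eulerT τ := rfl

theorem eta8_eq (τ : ℍ) : eta8 τ = cexp (2 * π * I * (τ : ℂ) / 3) * eulerT τ ^ 8 := by
  rw [eta8, eta_eq_eulerT, mul_pow]
  congr 1
  simp only [Function.Periodic.qParam]
  rw [← Complex.exp_nat_mul]
  congr 1
  push_cast
  ring

theorem cexp_scale (d : ℕ) (hd : 0 < d) (τ : ℍ) :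
    cexp (2 * π * I * ((scaleH d hd τ : ℍ) : ℂ) / 3) = cexp (2 * π * I * (τ : ℂ) / 3) ^ d := by
  rw [scaleH_coe, ← Complex.exp_nat_mul]
  congr 1
  ring

theorem qParam_eq_cube (τ : ℍ) : 𝕢 1 (τ : ℂ) = cexp (2 * π * I * (τ : ℂ) / 3) ^ 3 := by
  simp only [Function.Periodic.qParam]
  rw [← Complex.exp_nat_mul]
  congr 1
  push_cast
  ring

/-- `v` in terms of the Euler function. -/
theorem vFun_eq (τ : ℍ) :
    vFun τ = 𝕢 1 (τ : ℂ) ^ (-2 : ℤ) * eulerT τ ^ 8 * eulerT (scaleH 2 (by norm_num) τ) ^ 8 *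
      ((eulerT (scaleH 3 (by norm_num) τ) ^ 24)⁻¹ * eulerT (scaleH 3 (by norm_num) τ) ^ 23) ^ 8 *
      ((eulerT (scaleH 6 (by norm_num) τ) ^ 24)⁻¹ * eulerT (scaleH 6 (by norm_num) τ) ^ 23) ^ 8 := by
  have hx : cexp (2 * π * I * (τ : ℂ) / 3) ≠ 0 := Complex.exp_ne_zero _
  have h3 := eulerT_ne_zero (scaleH 3 (by norm_num) τ)
  have h6 := eulerT_ne_zero (scaleH 6 (by norm_num) τ)
  rw [vFun, eta8_eq, eta8_eq, eta8_eq, eta8_eq, cexp_scale, cexp_scale, cexp_scale,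
    qParam_eq_cube, zpow_neg]
  generalize cexp (2 * π * I * (τ : ℂ) / 3) = x at hx ⊢
  field_simp

theorem hasTExp_eulerT_pow : HasTExp 1 (fun τ : ℍ => eulerT τ ^ 8)
    (HahnSeries.ofPowerSeries ℤ ℂ (etaProdC ^ 8)) :=
  (((hasPExp_eulerFun one_pos).pow 8).hasTExp).congr fun _ => rfl

/-- The formal inverse of `etaProdC`. -/
def etaInvPC : PowerSeries ℂ := etaInvC * etaProdC ^ 23

theorem hasTExp_eulerT_inv_pow :
    HasTExp 1 (fun τ : ℍ => ((eulerT τ ^ 24)⁻¹ * eulerT τ ^ 23) ^ 8)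
      (HahnSeries.ofPowerSeries ℤ ℂ (etaInvPC ^ 8)) :=
  (((((hasPExp_eulerFun_pow_inv one_pos).mul ((hasPExp_eulerFun one_pos).pow 23)).pow 8)).hasTExp
    ).congr fun _ => rfl

/-- The series of `v` over `ℂ`, in product form. -/
def v3C : LaurentSeries ℂ :=
  HahnSeries.single (-2 : ℤ) (1 : ℂ) * HahnSeries.ofPowerSeries ℤ ℂ (etaProdC ^ 8) *
    qExpand ℂ 2 (HahnSeries.ofPowerSeries ℤ ℂ (etaProdC ^ 8)) *
    qExpand ℂ 3 (HahnSeries.ofPowerSeries ℤ ℂ (etaInvPC ^ 8)) *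
    qExpand ℂ 6 (HahnSeries.ofPowerSeries ℤ ℂ (etaInvPC ^ 8))

/-- **The `q`-expansion of `v`.** -/
theorem hasTExp_vFun : HasTExp 1 vFun v3C := by
  have hs := HasTExp.single (h := 1) (-2)
  have h1 := hasTExp_eulerT_pow
  have h2 := hasTExp_comp_scaleH 2 (by norm_num) hasTExp_eulerT_pow
  have h3 := hasTExp_comp_scaleH 3 (by norm_num) hasTExp_eulerT_inv_pow
  have h6 := hasTExp_comp_scaleH 6 (by norm_num) hasTExp_eulerT_inv_pow
  have h := (((hs.mul h1).mul h2).mul h3).mul h6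
  rw [v3C]
  refine h.congr fun τ => ?_
  rw [vFun_eq]
  rfl

theorem iotaC_v3L : iotaC v3L = v3C := by
  have hE : PowerSeries.map (Int.castRingHom ℂ) etaInvP = etaInvPC := by
    rw [etaInvP, etaInvPC, map_mul, map_pow]
    rfl
  have h8 : iotaC e8L = HahnSeries.ofPowerSeries ℤ ℂ (etaProdC ^ 8) := by
    rw [e8L, iotaC, coeffMap_ofPowerSeries, map_pow]
    rfl
  have h8i : iotaC e8InvL = HahnSeries.ofPowerSeries ℤ ℂ (etaInvPC ^ 8) := by
    rw [e8InvL, iotaC, coeffMap_ofPowerSeries, map_pow, hE]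
  have hq : ∀ (d : ℕ) [NeZero d] (x : LaurentSeries ℤ),
      iotaC (qExpand ℤ d x) = qExpand ℂ d (iotaC x) := by
    intro d _ x
    rw [iotaC, coeffMap_qExpand]
  rw [v3L, v3C, map_mul, map_mul, map_mul, map_mul, hq, hq, hq, h8, h8i]
  congr 4
  rw [iotaC, coeffMap_single]
  simp

/-- **`v` lies in the function field of `X₀(6)` over `ℂ`.** -/
theorem iotaC_v3L_mem : iotaC v3L ∈ laurentBaseChange ℂ (modularFunctionFieldFull 6) := by
  rw [iotaC_v3L]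
  refine Fermat.Agent.S29.H882.mem_FC_of_hasQExp vFun_mem_goodRing ?_
  refine Fermat.Agent.S24.H708.HasQExp.of_hasSum mdifferentiable_vFun ?_
  intro τ
  have h := hasTExp_vFun τ
  simpa [Fermat.Agent.S24.H708.qh] using h

/-- **`v` lies in the function field of `X₀(6)` over every field with an embedding into `ℂ`.** -/
theorem v3L_mem_of_embedding {K : Type*} [Field K] [Algebra ℚ K] (ι : K →+* ℂ) :
    coeffMap (Int.castRingHom K) v3L ∈ laurentBaseChange K (modularFunctionFieldFull 6) := by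
  refine Fermat.Agent.S29.H882.mem_laurentBaseChange_of_coeffMap_mem ι
    (modularFunctionFieldFull 6) ?_
  rw [coeffMap_coeffMap]
  have e : ι.comp (Int.castRingHom K) = Int.castRingHom ℂ := RingHom.ext_int _ _
  rw [coeffMap_congr e]
  exact iotaC_v3L_mem

end Fermat.Agent.S59.Unit3.H461
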