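import Fermat.Agent.S59.Unit3.H461.EtaChar
import Fermat.Agent.S28.H589.UnitGood
import Fermat.Agent.S29.H989.KHAct

/-!
# S59 / leaf UNIT-3 (p = 3 wall), part 2: the function `v = (η η₂ / (η₃ η₆))⁸` (helper461)

`vFun τ = η⁸(τ) η⁸(2τ) / (η⁸(3τ) η⁸(6τ))` is a good function of level `6`
(`S24.H648.goodRing 6`): holomorphic, `Γ₀(6)`-invariant, all translates of exponential growth.
Its cube is `Δ(τ) Δ(2τ) / (Δ(3τ) Δ(6τ))`.
-/

set_option autoImplicit false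

noncomputable section

open Complex ModularForm CongruenceSubgroup
open UpperHalfPlane hiding I
open scoped MatrixGroups Real Manifold

namespace Fermat.Agent.S59.Unit3.H461

open Fermat.Agent.S28.H589 (scaleH scaleH_coe unitFun unitFun')
open Fermat.Agent.S24.H648 (goodRing ExpGrowth)

local notation "Δ" => ModularForm.discriminant

/-! ## The conjugates `γ_d` -/

/-- For `γ = (a, b; d k, D)` the matrix `γ_d = (a, b d; k, D)`, so that `γ_d (d τ) = d (γ τ)`. -/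
def gammaD (γ : SL(2, ℤ)) (d : ℕ) (k : ℤ) (hk : γ 1 0 = d * k) : SL(2, ℤ) :=
  ⟨!![γ 0 0, γ 0 1 * d; k, γ 1 1], by
    rw [Matrix.det_fin_two_of]
    have hdet := γ.det_coe
    rw [Matrix.det_fin_two, hk] at hdet
    linear_combination hdet⟩

theorem gammaD_coe (γ : SL(2, ℤ)) (d : ℕ) (k : ℤ) (hk : γ 1 0 = d * k) :
    (↑(gammaD γ d k hk) : Matrix (Fin 2) (Fin 2) ℤ) = !![γ 0 0, γ 0 1 * d; k, γ 1 1] := rfl

theorem autJ_gammaD (γ : SL(2, ℤ)) (d : ℕ) (hd : 0 < d) (k : ℤ) (hk : γ 1 0 = d * k) (τ : ℍ) :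
    autJ (gammaD γ d k hk) (scaleH d hd τ) = autJ γ τ := by
  rw [autJ, autJ, gammaD_coe, scaleH_coe, hk]
  simp
  ring

theorem gammaD_smul (γ : SL(2, ℤ)) (d : ℕ) (hd : 0 < d) (k : ℤ) (hk : γ 1 0 = d * k) (τ : ℍ) :
    gammaD γ d k hk • scaleH d hd τ = scaleH d hd (γ • τ) := by
  apply UpperHalfPlane.ext
  have h1 := autJ_ne_zero γ τ
  have h2 := autJ_ne_zero (gammaD γ d k hk) (scaleH d hd τ)
  have h3 := autJ_gammaD γ d hd k hk τ
  rw [autJ] at h1 h2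
  rw [autJ, autJ, gammaD_coe] at h3
  rw [gammaD_coe] at h2
  rw [scaleH_coe, UpperHalfPlane.coe_specialLinearGroup_apply γ τ,
    UpperHalfPlane.coe_specialLinearGroup_apply (gammaD γ d k hk) _, gammaD_coe, scaleH_coe]
  simp only [algebraMap_int_eq, Int.coe_castRingHom, Complex.ofReal_intCast]
  simp only [scaleH_coe] at h2 h3
  simp at h2 h3 ⊢
  rw [h3] at h2 ⊢
  field_simp

theorem chi0_gammaD (γ : SL(2, ℤ)) (d : ℕ) (k : ℤ) (hk : γ 1 0 = d * k) :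
    chi0 (gammaD γ d k hk) = chiF ((γ 0 0 : ℤ) : ZMod 3) (((γ 0 1 : ℤ) : ZMod 3) * (d : ZMod 3))
      ((k : ℤ) : ZMod 3) ((γ 1 1 : ℤ) : ZMod 3) := by
  rw [chi0, gammaD_coe]
  simp

/-- The transformation law of `η⁸(d τ)` under `γ` with `d ∣ c`. -/
theorem eta8_scaleH_smul (γ : SL(2, ℤ)) (d : ℕ) (hd : 0 < d) (k : ℤ) (hk : γ 1 0 = d * k)
    (τ : ℍ) :
    eta8 (scaleH d hd (γ • τ)) =
      omegaPow (chi0 (gammaD γ d k hk)) * autJ γ τ ^ 4 * eta8 (scaleH d hd τ) := by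
  rw [← gammaD_smul γ d hd k hk τ, eta8_smul, autJ_gammaD]

/-! ## The function `v` -/

/-- `v(τ) = η⁸(τ) η⁸(2τ) / (η⁸(3τ) η⁸(6τ))`. -/
def vFun (τ : ℍ) : ℂ :=
  eta8 τ * eta8 (scaleH 2 (by norm_num) τ) * (eta8 (scaleH 3 (by norm_num) τ))⁻¹ *
    (eta8 (scaleH 6 (by norm_num) τ))⁻¹

theorem vFun_ne_zero (τ : ℍ) : vFun τ ≠ 0 := by
  unfold vFun
  exact mul_ne_zero (mul_ne_zero (mul_ne_zero (eta8_ne_zero _) (eta8_ne_zero _))
    (inv_ne_zero (eta8_ne_zero _))) (inv_ne_zero (eta8_ne_zero _))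

theorem chiF_cancel : ∀ a b c D : ZMod 3,
    chiF a b (6 * c) D + chiF a (b * 2) (3 * c) D =
      chiF a (b * 3) (2 * c) D + chiF a (b * 6) c D := by decide

theorem mem_Gamma0_six {γ : SL(2, ℤ)} (hγ : γ ∈ Gamma0 6) : ∃ c : ℤ, γ 1 0 = 6 * c := by
  rw [Gamma0_mem] at hγ
  exact (ZMod.intCast_zmod_eq_zero_iff_dvd _ _).mp hγ

/-- **`v` is `Γ₀(6)`-invariant.** -/
theorem vFun_smul (γ : SL(2, ℤ)) (hγ : γ ∈ Gamma0 6) (τ : ℍ) : vFun (γ • τ) = vFun τ := by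
  obtain ⟨c, hc⟩ := mem_Gamma0_six hγ
  have hk2 : γ 1 0 = ((2 : ℕ) : ℤ) * (3 * c) := by rw [hc]; push_cast; ring
  have hk3 : γ 1 0 = ((3 : ℕ) : ℤ) * (2 * c) := by rw [hc]; push_cast; ring
  have hk6 : γ 1 0 = ((6 : ℕ) : ℤ) * c := by rw [hc]; push_cast; ring
  have e1 := eta8_smul γ τ
  have e2 := eta8_scaleH_smul γ 2 (by norm_num) (3 * c) hk2 τ
  have e3 := eta8_scaleH_smul γ 3 (by norm_num) (2 * c) hk3 τ
  have e6 := eta8_scaleH_smul γ 6 (by norm_num) c hk6 τ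
  have hJ : autJ γ τ ≠ 0 := autJ_ne_zero γ τ
  have hχ : chi0 γ + chi0 (gammaD γ 2 (3 * c) hk2) =
      chi0 (gammaD γ 3 (2 * c) hk3) + chi0 (gammaD γ 6 c hk6) := by
    rw [chi0_gammaD, chi0_gammaD, chi0_gammaD, chi0]
    have h := chiF_cancel ((γ 0 0 : ℤ) : ZMod 3) ((γ 0 1 : ℤ) : ZMod 3) ((c : ℤ) : ZMod 3)
      ((γ 1 1 : ℤ) : ZMod 3)
    rw [hc]
    push_cast
    exact h
  have hω : omegaPow (chi0 γ) * omegaPow (chi0 (gammaD γ 2 (3 * c) hk2)) =
      omegaPow (chi0 (gammaD γ 3 (2 * c) hk3)) * omegaPow (chi0 (gammaD γ 6 c hk6)) := by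
    rw [← omegaPow_add, ← omegaPow_add, hχ]
  have h3 := omegaPow_ne_zero (chi0 (gammaD γ 3 (2 * c) hk3))
  have h6 := omegaPow_ne_zero (chi0 (gammaD γ 6 c hk6))
  have n3 := eta8_ne_zero (scaleH 3 (by norm_num) τ)
  have n6 := eta8_ne_zero (scaleH 6 (by norm_num) τ)
  unfold vFun
  rw [e1, e2, e3, e6]
  field_simp
  linear_combination (eta8 τ * eta8 (scaleH 2 (by norm_num) τ)) * hω

theorem scaleH_scaleH (a b : ℕ) (ha : 0 < a) (hb : 0 < b) (τ : ℍ) :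
    scaleH a ha (scaleH b hb τ) = scaleH (a * b) (Nat.mul_pos ha hb) τ := by
  apply UpperHalfPlane.ext
  simp only [scaleH_coe]
  push_cast
  ring

/-- `v³ = Δ(τ) Δ(2τ) / (Δ(3τ) Δ(6τ))`. -/
theorem vFun_pow_three (τ : ℍ) :
    vFun τ ^ 3 = unitFun' 3 (by norm_num) τ *
      unitFun' 3 (by norm_num) (scaleH 2 (by norm_num) τ) := by
  have h6 : scaleH 3 (by norm_num) (scaleH 2 (by norm_num) τ) = scaleH 6 (by norm_num) τ :=
    scaleH_scaleH 3 2 _ _ τ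
  rw [unitFun', unitFun', h6, vFun, mul_pow, mul_pow, mul_pow, inv_pow, inv_pow,
    eta8_pow_three, eta8_pow_three, eta8_pow_three, eta8_pow_three]
  ring

/-- `v` is holomorphic. -/
theorem mdifferentiable_vFun : MDifferentiable 𝓘(ℂ) 𝓘(ℂ) vFun := by
  have hs : ∀ (d : ℕ) (hd : 0 < d),
      MDifferentiable 𝓘(ℂ) 𝓘(ℂ) (fun τ : ℍ => eta8 (scaleH d hd τ)) := fun d hd =>
    Fermat.Agent.S24.H648.mdifferentiable_J_scale mdifferentiable_eta8 d hd (scaleH d hd)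
      (fun τ => rfl)
  have h1 := mdifferentiable_eta8.mul (hs 2 (by norm_num))
  have h2 := h1.div (hs 3 (by norm_num)) (fun τ => eta8_ne_zero _)
  have h3 := h2.div (hs 6 (by norm_num)) (fun τ => eta8_ne_zero _)
  have he : vFun = ((eta8 * fun τ : ℍ => eta8 (scaleH 2 (by norm_num) τ)) /
      fun τ : ℍ => eta8 (scaleH 3 (by norm_num) τ)) /
      fun τ : ℍ => eta8 (scaleH 6 (by norm_num) τ) := by
    funext τ
    simp [vFun, div_eq_mul_inv]
  rw [he]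
  exact h3

/-! ## Growth -/

/-- If `U ^ 3` has at most exponential growth, so has `U`. -/
theorem expGrowth_of_cube {U : ℍ → ℂ} (h : ExpGrowth (fun τ => U τ ^ 3)) : ExpGrowth U := by
  obtain ⟨C, m, hC⟩ := h
  refine ⟨1 + |C|, m, fun τ hτ => ?_⟩
  have h1 := hC τ hτ
  rw [norm_pow] at h1
  have hexp : (1 : ℝ) ≤ Real.exp (2 * Real.pi * m * τ.im) := by
    apply Real.one_le_exp
    have := Real.pi_pos
    have := τ.im_pos
    positivity
  by_cases hle : ‖U τ‖ ≤ 1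
  · calc ‖U τ‖ ≤ 1 := hle
      _ ≤ (1 + |C|) * 1 := by have := abs_nonneg C; linarith
      _ ≤ (1 + |C|) * Real.exp (2 * Real.pi * m * τ.im) := by
          apply mul_le_mul_of_nonneg_left hexp
          have := abs_nonneg C; linarith
  · have hgt : 1 ≤ ‖U τ‖ := (not_le.mp hle).le
    have h2 : ‖U τ‖ ≤ ‖U τ‖ ^ 3 := le_self_pow₀ hgt (by norm_num)
    calc ‖U τ‖ ≤ ‖U τ‖ ^ 3 := h2
      _ ≤ C * Real.exp (2 * Real.pi * m * τ.im) := h1
      _ ≤ (1 + |C|) * Real.exp (2 * Real.pi * m * τ.im) := by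
          apply mul_le_mul_of_nonneg_right _ (Real.exp_pos _).le
          have := le_abs_self C; linarith

/-- The integer matrix `(0, -1; d, 0)` of `τ ↦ -1/(d τ)`. -/
def frickeMat (d : ℕ) : Matrix (Fin 2) (Fin 2) ℤ := !![0, -1; (d : ℤ), 0]

theorem frickeMat_det (d : ℕ) : (frickeMat d).det = (d : ℤ) := by
  simp [frickeMat, Matrix.det_fin_two_of]

theorem frickeMat_det_pos (d : ℕ) (hd : 0 < d) : 0 < (frickeMat d).det := by
  rw [frickeMat_det]
  exact_mod_cast hd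

theorem frickeMat_smul (d : ℕ) (hd : 0 < d) (τ : ℍ) :
    Fermat.Agent.S29.H989.KH_glInt (frickeMat d) (frickeMat_det_pos d hd) • τ =
      ModularGroup.S • scaleH d hd τ := by
  apply UpperHalfPlane.ext
  rw [coe_smul_of_det_pos (Fermat.Agent.S29.H989.KH_glInt_det_pos _ _), coe_S_smul, scaleH_coe]
  simp [num, denom, Fermat.Agent.S29.H989.KH_glInt_apply, frickeMat]

theorem unitFun'_eq (p : ℕ) (hp : 0 < p) (τ : ℍ) :
    unitFun' p hp τ = unitFun p hp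
      (Fermat.Agent.S29.H989.KH_glInt (frickeMat p) (frickeMat_det_pos p hp) • τ) := by
  rw [frickeMat_smul p hp, Fermat.Agent.S28.H589.unitFun_S_scaleH]

/-- `unitFun' 3 (d τ) = unitFun 3 (-1/(3 d τ))`. -/
theorem unitFun'_scaleH_eq (p d : ℕ) (hp : 0 < p) (hd : 0 < d) (τ : ℍ) :
    unitFun' p hp (scaleH d hd τ) = unitFun p hp
      (ModularGroup.S • scaleH (p * d) (Nat.mul_pos hp hd) τ) := by
  rw [← scaleH_scaleH p d hp hd τ, Fermat.Agent.S28.H589.unitFun_S_scaleH]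

/-- All translates of `v` have at most exponential growth. -/
theorem expGrowth_vFun_smul (g : SL(2, ℤ)) : ExpGrowth (fun τ => vFun (g • τ)) := by
  apply expGrowth_of_cube
  have hG : unitFun 3 (by norm_num) ∈ goodRing 3 :=
    Fermat.Agent.S28.H589.unitFun_mem_goodRing 3 (by norm_num)
  have h1 := Fermat.Agent.S29.H989.KH_expGrowth_smul hG (frickeMat 3)
    (frickeMat_det_pos 3 (by norm_num)) g
  have h2 := Fermat.Agent.S29.H989.KH_expGrowth_smul hG (frickeMat 6)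
    (frickeMat_det_pos 6 (by norm_num)) g
  have h := h1.mul h2
  have e : (fun τ => vFun (g • τ) ^ 3) =
      (fun τ => unitFun 3 (by norm_num)
        (Fermat.Agent.S29.H989.KH_glInt (frickeMat 3) (frickeMat_det_pos 3 (by norm_num)) •
          (g • τ))) *
      (fun τ => unitFun 3 (by norm_num)
        (Fermat.Agent.S29.H989.KH_glInt (frickeMat 6) (frickeMat_det_pos 6 (by norm_num)) •
          (g • τ))) := by
    funext τ
    rw [Pi.mul_apply, vFun_pow_three, unitFun'_eq, frickeMat_smul 6 (by norm_num),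
      unitFun'_scaleH_eq 3 2 (by norm_num) (by norm_num)]
  rw [e]
  exact h

/-- **`v` is a good function of level `6`.** -/
theorem vFun_mem_goodRing : vFun ∈ goodRing 6 :=
  ⟨mdifferentiable_vFun, fun γ hγ τ => vFun_smul γ hγ τ, fun g => expGrowth_vFun_smul g⟩

end Fermat.Agent.S59.Unit3.H461
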