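import Fermat.Agent.S59.Unit3.H461.Unit3Elt

/-!
# S59 / leaf UNIT-3 (p = 3 wall), part 6: horizontal part (helper461)

`D = 3⁸ v⁻¹` and `D' = v` lie in every valuation subring of `F_N` (`6 ∣ N`) containing `j`;
they lie in the finite chart of the coordinate `x = j · j_3` at level `M * 3`, `2 ∣ M`.
Route: the cube relations `D³ = (3¹² u)(3¹² u(t²))`, `D'³ = u' · u'(t²)`, the integrality
relations of `3¹² u` over `ℤ[j]` and of `u'` over `ℤ[j_3]` (helper589 / helper438), transported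
by `t ↦ t²`, the modular equations of levels `2` and `3`, and integral closedness of valuation
rings.
-/

set_option autoImplicit false
set_option synthInstance.maxHeartbeats 400000
set_option maxHeartbeats 1600000

noncomputable section

namespace Fermat.Agent.S59.Unit3.H461

open ModularCurve HahnSeries Polynomial
open Fermat.Agent.A2.Mod Fermat.Agent.S28 Fermat.Agent.A2.Mod.H873
open Fermat.Agent.S36.H438 (castE uE uE' dE)

/-! ## 1. Abstract -/

theorem mem_of_pow_three_mem {K : Type*} [Field K] (V : ValuationSubring K) {x : K}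
    (h : x ^ 3 ∈ V) : x ∈ V := by
  by_contra hx
  have hx0 : x ≠ 0 := fun h0 => hx (h0 ▸ V.zero_mem)
  have hinv : x⁻¹ ∈ V := (V.mem_or_inv_mem x).resolve_left hx
  have h1 : x = x ^ 3 * x⁻¹ * x⁻¹ := by
    field_simp
  exact hx (h1 ▸ V.mul_mem _ _ (V.mul_mem _ _ h hinv) hinv)

/-! ## 2. Transport of the integral relations by `t ↦ t²` -/

theorem qExpand_two_eval₂ (Φ : Polynomial (Polynomial ℤ)) (A B : LaurentSeries ℤ)
    (h : Φ.eval₂ (evalAt B) A = 0) :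
    Φ.eval₂ (evalAt (qExpand ℤ 2 B)) (qExpand ℤ 2 A) = 0 := by
  have h2 := Polynomial.hom_eval₂ Φ (evalAt B) (qExpand ℤ 2) A
  rw [h, map_zero, Fermat.Agent.S28.H145.qExpand_comp_evalAt] at h2
  exact h2.symm

theorem qExpand_two_three (X : LaurentSeries ℤ) :
    qExpand ℤ 2 (qExpand ℤ 3 X) = qExpand ℤ 6 X := by
  rw [qExpand_qExpand]

/-- The two integrality relations of the unit pair of level `3`, at `t²`. -/
theorem exists_unitPoly_two :
    ∃ Ψ : Polynomial (Polynomial ℤ), Ψ.Monic ∧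
      Ψ.eval₂ (evalAt (qExpand ℤ 2 (jqModC ℤ)))
        ((3 : LaurentSeries ℤ) ^ 12 * qExpand ℤ 2 (unitL ℤ 3)) = 0 ∧
      Ψ.eval₂ (evalAt (qExpand ℤ 6 (jqModC ℤ))) (qExpand ℤ 2 (H589.unitL' 3)) = 0 := by
  obtain ⟨Ψ, hΨ, h1, h2⟩ := Fermat.Agent.S36.H438.exists_unitPoly_both 3 Nat.prime_three
  refine ⟨Ψ, hΨ, ?_, ?_⟩
  · have h := qExpand_two_eval₂ Ψ _ _ h1
    rw [map_mul, map_pow, map_natCast] at h
    exact_mod_cast h
  · have h := qExpand_two_eval₂ Ψ _ _ h2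
    rwa [qExpand_two_three] at h

/-! ## 3. In `F_{N,E}` -/

section Horizontal

variable (E : IntermediateField ℚ Qb) (N : ℕ) [NeZero N] (h6 : 6 ∣ N)

/-- `3¹² u(t²)`. -/
def d2E : FE E N := algebraMap E (FE E N) ((3 : E) ^ 12) * u2E E N h6

theorem coe_d2E :
    ((d2E E N h6 : FE E N) : LaurentSeries E)
      = castE E ((3 : LaurentSeries ℤ) ^ 12 * qExpand ℤ 2 (unitL ℤ 3)) := by
  show algebraMap E (LaurentSeries E) ((3 : E) ^ 12) * castE E (qExpand ℤ 2 (unitL ℤ 3)) = _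
  rw [map_mul, map_pow, map_pow, map_ofNat, map_ofNat]

theorem d3E_pow_three' :
    d3E E N h6 ^ 3 = dE E N 3 (three_dvd_of_six_dvd N h6) * d2E E N h6 :=
  d3E_pow_three E N h6

theorem exists_unitPoly_two_FE :
    ∃ Ψ : Polynomial (Polynomial ℤ), Ψ.Monic ∧
      Ψ.eval₂ (Polynomial.aeval (R := ℤ) (jE E N 2 (two_dvd_of_six_dvd N h6))).toRingHom
        (d2E E N h6) = 0 ∧
      Ψ.eval₂ (Polynomial.aeval (R := ℤ) (jE E N 6 h6)).toRingHom (u2E' E N h6) = 0 := by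
  obtain ⟨Ψ, hΨ, h1, h2⟩ := exists_unitPoly_two
  refine ⟨Ψ, hΨ, ?_, ?_⟩
  · exact eval₂_eq_zero_of_int E N Ψ _ _ _ _ (coe_d2E E N h6) (coe_jE_int E N 2 _) h1
  · exact eval₂_eq_zero_of_int E N Ψ _ _ _ _ (coe_u2E' E N h6) (coe_jE_int E N 6 h6) h2

theorem d2E_mem_of_j2_mem (V : ValuationSubring (FE E N))
    (hj : jE E N 2 (two_dvd_of_six_dvd N h6) ∈ V) : d2E E N h6 ∈ V := by
  obtain ⟨Ψ, hΨ, h1, -⟩ := exists_unitPoly_two_FE E N h6
  exact mem_valuationSubring_of_monic_eval Ψ hΨ h1 V hj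

theorem u2E'_mem_of_j6_mem (V : ValuationSubring (FE E N)) (hj : jE E N 6 h6 ∈ V) :
    u2E' E N h6 ∈ V := by
  obtain ⟨Ψ, hΨ, -, h2⟩ := exists_unitPoly_two_FE E N h6
  exact mem_valuationSubring_of_monic_eval Ψ hΨ h2 V hj

/-- `j_2 ∈ V → j_6 ∈ V` (modular equation of level `3` at `t²`). -/
theorem j6_mem_of_j2_mem (V : ValuationSubring (FE E N))
    (hj : jE E N 2 (two_dvd_of_six_dvd N h6) ∈ V) : jE E N 6 h6 ∈ V := by
  obtain ⟨D⟩ := Fermat.Agent.S28.H807.nonempty_modPolyData 3 Nat.prime_three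
  have h0 := qExpand_two_eval₂ D.Φ _ _ D.eval_jp
  rw [qExpand_two_three] at h0
  have h1 : D.Φ.eval₂ (Polynomial.aeval (R := ℤ) (jE E N 2 (two_dvd_of_six_dvd N h6))).toRingHom
      (jE E N 6 h6) = 0 :=
    eval₂_eq_zero_of_int E N D.Φ _ _ _ _ (coe_jE_int E N 6 h6) (coe_jE_int E N 2 _) h0
  exact mem_valuationSubring_of_monic_eval D.Φ D.monic h1 V hj

/-- `j ∈ V` implies `j_2, j_3, j_6 ∈ V`. -/
theorem j_all_mem_of_j_mem (V : ValuationSubring (FE E N))
    (hj : jE E N 1 (one_dvd N) ∈ V) :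
    jE E N 2 (two_dvd_of_six_dvd N h6) ∈ V ∧ jE E N 3 (three_dvd_of_six_dvd N h6) ∈ V ∧
      jE E N 6 h6 ∈ V := by
  have h2 := (Fermat.Agent.S36.H438.j_mem_iff_jq_mem E N 2 (two_dvd_of_six_dvd N h6)
    Nat.prime_two V).mp hj
  have h3 := (Fermat.Agent.S36.H438.j_mem_iff_jq_mem E N 3 (three_dvd_of_six_dvd N h6)
    Nat.prime_three V).mp hj
  exact ⟨h2, h3, j6_mem_of_j2_mem E N h6 V h2⟩

/-- **UNIT-3 (3a)**: `D = 3⁸ v⁻¹` lies in every valuation subring containing `j`. -/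
theorem d3E_mem_of_j_mem (V : ValuationSubring (FE E N))
    (hj : jE E N 1 (one_dvd N) ∈ V) : d3E E N h6 ∈ V := by
  obtain ⟨h2, -, -⟩ := j_all_mem_of_j_mem E N h6 V hj
  apply mem_of_pow_three_mem V
  rw [d3E_pow_three']
  exact V.mul_mem _ _
    (Fermat.Agent.S36.H438.dE_mem_of_j_mem E N 3 _ Nat.prime_three V hj)
    (d2E_mem_of_j2_mem E N h6 V h2)

/-- **UNIT-3 (3b)**: `D' = v` lies in every valuation subring containing `j`. -/
theorem vE_mem_of_j_mem (V : ValuationSubring (FE E N))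
    (hj : jE E N 1 (one_dvd N) ∈ V) : vE E N h6 ∈ V := by
  obtain ⟨-, h3, h6'⟩ := j_all_mem_of_j_mem E N h6 V hj
  apply mem_of_pow_three_mem V
  rw [vE_pow_three]
  exact V.mul_mem _ _
    (Fermat.Agent.S36.H438.uE'_mem_of_jq_mem E N 3 _ Nat.prime_three V h3)
    (u2E'_mem_of_j6_mem E N h6 V h6')

/-- **UNIT-3 (3)**: at a place `V ⊇ E` of `F_N` where `j` is finite, `D` and `D'` are units
(no zeros or poles of `v` outside the cusps). -/
theorem pair_unit_of_j_mem (V : ValuationSubring (FE E N))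
    (hE : ∀ e : E, algebraMap E (FE E N) e ∈ V) (hj : jE E N 1 (one_dvd N) ∈ V) :
    (d3E E N h6 ∈ V ∧ (d3E E N h6)⁻¹ ∈ V) ∧ (vE E N h6 ∈ V ∧ (vE E N h6)⁻¹ ∈ V) := by
  have hD := d3E_mem_of_j_mem E N h6 V hj
  have hv := vE_mem_of_j_mem E N h6 V hj
  refine ⟨⟨hD, ?_⟩, ⟨hv, ?_⟩⟩
  · rw [d3E_inv]
    exact V.mul_mem _ _ (hE _) hv
  · have h1 := V.mul_mem _ _ (hE ((3 : E) ^ 8)⁻¹) hD
    rwa [d3E, ← mul_assoc, ← map_mul, inv_mul_cancel₀ (three_pow_ne_zero E 8), map_one, one_mul,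
      ← vE_inv] at h1

end Horizontal

/-! ## 4. The finite chart of `x = j · j_3` at level `M * 3`, `2 ∣ M` -/

section Chart

variable (P : ValuationSubring Qb) (E : IntermediateField ℚ Qb) (M : ℕ) [NeZero M] (h2 : 2 ∣ M)

include h2 in
omit [NeZero M] in
theorem six_dvd_mul_three : 6 ∣ M * 3 := by
  obtain ⟨k, rfl⟩ := h2
  exact ⟨k, by ring⟩

/-- **UNIT-3 (3c)**: `D = 3⁸ v⁻¹` lies in the finite chart of the coordinate `x = j · j_3`. -/
theorem d3E_mem_chartAlg :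
    d3E E (M * 3) (six_dvd_mul_three M h2) ∈ chartAlg P E (M * 3) (xE E M 3) := by
  rw [← Fermat.Agent.A2.Mod.H142.mem_chart_iff]
  refine isIntegralElem_of_isIntegral_closure _
    (isIntegral_closure_of_forall_valuationSubring fun V hx => ?_)
  exact d3E_mem_of_j_mem E (M * 3) _ V
    (Fermat.Agent.S36.H438.j_mem_of_x_mem E M 3 Nat.prime_three V hx).1

/-- **UNIT-3 (3d)**: `D' = v` lies in the finite chart of the coordinate `x = j · j_3`. -/
theorem vE_mem_chartAlg :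
    vE E (M * 3) (six_dvd_mul_three M h2) ∈ chartAlg P E (M * 3) (xE E M 3) := by
  rw [← Fermat.Agent.A2.Mod.H142.mem_chart_iff]
  refine isIntegralElem_of_isIntegral_closure _
    (isIntegral_closure_of_forall_valuationSubring fun V hx => ?_)
  exact vE_mem_of_j_mem E (M * 3) _ V
    (Fermat.Agent.S36.H438.j_mem_of_x_mem E M 3 Nat.prime_three V hx).1

end Chart

end Fermat.Agent.S59.Unit3.H461
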