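import Fermat.Agent.S59.Unit3.H461.Unit3Pair
import Fermat.Agent.Ribet.H944.TameLevel

/-!
# S59 / leaf UNIT-3, part 10: the unit pair at the TAME level `ℚ̄^I(ζ₃)` (helper461)

`unitPairAt_three_tame` : VERBATIM the body of `Ribet.H712.Frame.UnitPairAt 3 M' A
(tameLevel A ζ) Q` (helper712, generic WILD frame) with
`Q D := (D : E((t))) = castE E v3L`, exponent `Nn = 8 · (3 - 1) = 16`, prime to `3`.
-/

set_option autoImplicit false
set_option synthInstance.maxHeartbeats 400000
set_option maxHeartbeats 1600000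
set_option linter.unusedSectionVars false

noncomputable section

namespace Fermat.Agent.S59.Unit3.H461

open ModularCurve HahnSeries
open Fermat.Agent.A2.Mod
open Fermat.Agent.Ribet.H944.Tame

/-- **The unit pair at `p = 3` at the tame level**, exponent `16`. -/
theorem unitPairAt_three_tame (M' : ℕ) [NeZero M'] (h2 : 2 ∣ M') (A : ValuationSubring Qb)
    (hA : A.LiesOverPrime 3) (ζ : Qb) (hζ : IsPrimitiveRoot ζ 3) :
    ∀ (w : RE A (tameLevel A ζ)), Setting A (tameLevel A ζ) M' 3 w →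
      ∀ (V : ValuationSubring (FE (tameLevel A ζ) (M' * 3)))
        (W : FE (tameLevel A ζ) (M' * 3) ≃ₐ[tameLevel A ζ] FE (tameLevel A ζ) (M' * 3)),
        IsVinf A (tameLevel A ζ) (M' * 3) V → IsFricke (tameLevel A ζ) (M' * 3) W →
        ∀ p₁ p₂ : Ideal (chartAlg A (tameLevel A ζ) (M' * 3) (xE (tameLevel A ζ) M' 3)),
          IsCut A (tameLevel A ζ) (M' * 3) w V
            (chartAlg A (tameLevel A ζ) (M' * 3) (xE (tameLevel A ζ) M' 3)) p₁ →
          IsCut A (tameLevel A ζ) (M' * 3) w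
            (V.comap (W : FE (tameLevel A ζ) (M' * 3) →+* FE (tameLevel A ζ) (M' * 3)))
            (chartAlg A (tameLevel A ζ) (M' * 3) (xE (tameLevel A ζ) M' 3)) p₂ →
          ∃ (Nn : ℕ) (D D' : chartAlg A (tameLevel A ζ) (M' * 3) (xE (tameLevel A ζ) M' 3)),
            Nat.Coprime Nn 3 ∧
            D * D' =
              algebraMap (RE A (tameLevel A ζ))
                (chartAlg A (tameLevel A ζ) (M' * 3) (xE (tameLevel A ζ) M' 3)) w ^ Nn ∧
            D ∉ p₁ ∧ D' ∉ p₂ ∧
            ((D : FE (tameLevel A ζ) (M' * 3)) : LaurentSeries (tameLevel A ζ)) =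
              Fermat.Agent.S36.H438.castE (tameLevel A ζ) v3L := by
  intro w hS V W hV hW p₁ p₂ hc₁ hc₂
  have hram : Associated ((3 : ℕ) : RE A (tameLevel A ζ)) (w ^ (3 - 1)) :=
    associated_natCast_pow (A := A) Nat.prime_three hA hζ w hS.unif
  obtain ⟨D, D', hmul, hD, hD', hexp⟩ :=
    unitPairAt_three_ram A (tameLevel A ζ) M' h2 hS hram hV hW p₁ p₂ hc₁ hc₂
  exact ⟨8 * (3 - 1), D, D', by decide, hmul, hD, hD', hexp⟩

end Fermat.Agent.S59.Unit3.H461
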