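import Fermat.Agent.Ribet.H873.UnitPair

/-!
# S59 / leaf UNIT-3, part 8: from a unit PACKAGE to the unit PAIR in cut form, GENERIC
(helper461)

`PkgAt P E M q N₀ X₀` : the format of `S36.H438.mu_package` (exponent `12`, `X₀ = Δ(t)/Δ(t^q)`)
and of `S59.Unit3.H461.mu3_package` (`q = 3`, exponent `8`, `X₀ = v3L`), restricted to what the
walls use: `D, D'` in the finite chart of `x = j · j_q`, `D · D' = q ^ N₀`, `D'` a unit of `V∞`
with `t`-expansion `X₀`, `D` a unit of `V₀ = V∞.comap W`.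

`exists_unitPair_cut_of_pkg` : the pair in CUT form with the ramification index `e` REMEMBERED
(`q ~ w ^ e`): `D₁ · D₁' = w ^ (N₀ e)`, `D₁ ∉ p₁`, `D₁' ∉ p₂`, `D₁ = X₀` as a `t`-series.
This is the body of `Ribet.H912.UnitPairAt` (generic TAME) and, with `e` computed at the tame
level, of `Ribet.H712.Frame.UnitPairAt` (generic WILD frame).
Same proof as `Ribet.H464.exists_unitPair_cut_exp464` (which is the case `N₀ = 12`).
-/

set_option autoImplicit false
set_option synthInstance.maxHeartbeats 400000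
set_option maxHeartbeats 1600000
set_option linter.unusedSectionVars false

noncomputable section

namespace Fermat.Agent.S59.Unit3.H461

open ModularCurve HahnSeries
open Fermat.Agent.A2.Mod

variable {P : ValuationSubring Qb} {E : IntermediateField ℚ Qb}

section Pair

variable {M q : ℕ} [NeZero M] [NeZero q]

/-- **A unit package** of exponent `N₀` with expansion `X₀` at level `M * q` over `E`. -/
def PkgAt (P : ValuationSubring Qb) (E : IntermediateField ℚ Qb) (M q : ℕ) [NeZero M]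
    [NeZero q] (N₀ : ℕ) (X₀ : LaurentSeries ℤ) : Prop :=
  ∃ D D' : FE E (M * q),
    (D' : LaurentSeries E) = Fermat.Agent.S36.H438.castE E X₀ ∧
    D * D' = algebraMap E (FE E (M * q)) ((q : E) ^ N₀) ∧
    D ∈ chartAlg P E (M * q) (xE E M q) ∧
    D' ∈ chartAlg P E (M * q) (xE E M q) ∧
    (∀ V : ValuationSubring (FE E (M * q)), IsVinf P E (M * q) V → D' ∈ V ∧ D'⁻¹ ∈ V) ∧
    (∀ (V : ValuationSubring (FE E (M * q))) (W : FE E (M * q) ≃ₐ[E] FE E (M * q)),
      IsVinf P E (M * q) V → IsFricke E (M * q) W →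
        D ∈ V.comap (W : FE E (M * q) →+* FE E (M * q)) ∧
        D⁻¹ ∈ V.comap (W : FE E (M * q) →+* FE E (M * q)))

/-- The package of main: exponent `12`, expansion `Δ(t)/Δ(t^q)`. -/
theorem pkgAt_delta (hq : q.Prime) :
    PkgAt P E M q 12 (Fermat.Agent.S28.H589.unitL' q) := by
  obtain ⟨D, D', -, hexp, hmul, hD, hD', hVu, hV0u, -⟩ :=
    Fermat.Agent.S36.H438.mu_package P E M q hq
  exact ⟨D, D', hexp, hmul, hD, hD', hVu, hV0u⟩

/-- The pair `D₁ = X₀`, `D₁' = q ^ N₀ / X₀` of a package: `D₁ ∉ w V∞`, `D₁' ∉ w V₀`. -/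
theorem unitPair_of_pkg {N₀ : ℕ} {X₀ : LaurentSeries ℤ} (hpkg : PkgAt P E M q N₀ X₀)
    {w : RE P E} (hS : Setting P E M q w)
    {V : ValuationSubring (FE E (M * q))} {W : FE E (M * q) ≃ₐ[E] FE E (M * q)}
    (hV : IsVinf P E (M * q) V) (hW : IsFricke E (M * q) W) :
    ∃ D D' : FE E (M * q),
      D ∈ chartAlg P E (M * q) (xE E M q) ∧ D' ∈ chartAlg P E (M * q) (xE E M q) ∧
      D * D' = cE P E (M * q) ((q : RE P E) ^ N₀) ∧
      ¬ InW P E (M * q) V w D ∧
      ¬ InW P E (M * q) (V.comap (W : FE E (M * q) →+* FE E (M * q))) w D' ∧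
      (D : LaurentSeries E) = Fermat.Agent.S36.H438.castE E X₀ := by
  obtain ⟨D', D, hexp, hmul, hD', hD, hVu, hV0u⟩ := hpkg
  have hc0 : algebraMap E (FE E (M * q)) ((q : E) ^ N₀) ≠ 0 := by
    rw [Ne, map_eq_zero]
    exact pow_ne_zero N₀ (Nat.cast_ne_zero.mpr (NeZero.ne q))
  have hD0 : D ≠ 0 := by
    rintro rfl
    rw [mul_zero] at hmul
    exact hc0 hmul.symm
  have hD'0 : D' ≠ 0 := by
    rintro rfl
    rw [zero_mul] at hmul
    exact hc0 hmul.symm
  refine ⟨D, D', hD, hD', ?_, ?_, ?_, hexp⟩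
  · rw [mul_comm D D', hmul, cE]
    congr 1
  · exact Fermat.Agent.Ribet.H873.not_inW_of_inv_mem873
      (Fermat.Agent.Ribet.H873.cE_inv_not_mem873 hS.dvr hS.unif hV) hD0 (hVu V hV).2
  · exact Fermat.Agent.Ribet.H873.not_inW_of_inv_mem873
      (Fermat.Agent.Ribet.H873.cE_inv_not_mem_comap873 hS.dvr hS.unif hV W) hD'0
      (hV0u V W hV hW).2

/-- **Normalised, with expansion.**  `q ε = w ^ e` in `R_E`: elements `D, D'` of the chart
`B = chartAlg x` with `D · D' = w ^ (N₀ e)`, `D ∉ w V∞`, `D' ∉ w V₀`, and `D = X₀`. -/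
theorem exists_unitPair_of_pkg {N₀ : ℕ} {X₀ : LaurentSeries ℤ} (hpkg : PkgAt P E M q N₀ X₀)
    {w : RE P E} (hS : Setting P E M q w)
    {V : ValuationSubring (FE E (M * q))} {W : FE E (M * q) ≃ₐ[E] FE E (M * q)}
    (hV : IsVinf P E (M * q) V) (hW : IsFricke E (M * q) W) :
    ∃ (e : ℕ) (D D' : chartAlg P E (M * q) (xE E M q)), 0 < e ∧
      Associated ((q : ℕ) : RE P E) (w ^ e) ∧
      D * D' = algebraMap (RE P E) (chartAlg P E (M * q) (xE E M q)) w ^ (N₀ * e) ∧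
      ¬ InW P E (M * q) V w (D : FE E (M * q)) ∧
      ¬ InW P E (M * q) (V.comap (W : FE E (M * q) →+* FE E (M * q))) w
        (D' : FE E (M * q)) ∧
      (((D : FE E (M * q)) : FE E (M * q)) : LaurentSeries E) =
        Fermat.Agent.S36.H438.castE E X₀ := by
  haveI := hS.dvr
  obtain ⟨D₀, D₀', hD, hD', hmul, hDV, hD'V, hexp⟩ := unitPair_of_pkg hpkg hS hV hW
  have hq0 : ((q : ℕ) : RE P E) ≠ 0 := Nat.cast_ne_zero.mpr (NeZero.ne q)
  obtain ⟨e, he⟩ := IsDiscreteValuationRing.associated_pow_irreducible hq0 hS.unif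
  have he0 : 0 < e := by
    rcases Nat.eq_zero_or_pos e with h0 | h0
    · exfalso
      rw [h0, pow_zero] at he
      exact Fermat.Agent.Ribet.H873.not_isUnit_natCast873 hS.lies_over
        (he.symm.isUnit_iff.mp isUnit_one)
    · exact h0
  obtain ⟨ε, hε⟩ := he
  set B := chartAlg P E (M * q) (xE E M q) with hB
  refine ⟨e, ⟨D₀, hD⟩, algebraMap (RE P E) B ((ε : RE P E) ^ N₀) * ⟨D₀', hD'⟩,
    he0, ⟨ε, hε⟩, ?_, hDV, ?_, hexp⟩
  · apply Subtype.ext
    show D₀ * (algebraMap (RE P E) (FE E (M * q)) ((ε : RE P E) ^ N₀) * D₀') =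
      (algebraMap (RE P E) (FE E (M * q)) w) ^ (N₀ * e)
    have hcE : cE P E (M * q) ((q : RE P E) ^ N₀) =
        algebraMap (RE P E) (FE E (M * q)) ((q : RE P E) ^ N₀) := rfl
    rw [mul_left_comm, hmul, hcE, ← map_mul, ← map_pow]
    congr 1
    rw [pow_mul', ← hε]
    ring
  · intro h
    apply hD'V
    have hεV : algebraMap (RE P E) (FE E (M * q)) (((ε⁻¹ : (RE P E)ˣ) : RE P E) ^ N₀) ∈
        V.comap (W : FE E (M * q) →+* FE E (M * q)) := by
      rw [ValuationSubring.mem_comap]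
      have h1 : (W : FE E (M * q) →+* FE E (M * q))
          (algebraMap (RE P E) (FE E (M * q)) (((ε⁻¹ : (RE P E)ˣ) : RE P E) ^ N₀)) =
          algebraMap E (FE E (M * q)) ((((ε⁻¹ : (RE P E)ˣ) : RE P E) ^ N₀ : RE P E) : E) :=
        W.commutes _
      rw [h1]
      exact (Fermat.Agent.A2.Mod.H708.algebraMap_mem_iff_of_isVinf hV _).mpr (Subtype.mem _)
    have h2 := (V.comap (W : FE E (M * q) →+* FE E (M * q))).mul_mem _ _ hεV h
    have h3 : algebraMap (RE P E) (FE E (M * q)) (((ε⁻¹ : (RE P E)ˣ) : RE P E) ^ N₀) *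
        (((algebraMap (RE P E) B ((ε : RE P E) ^ N₀) * ⟨D₀', hD'⟩ : B) : FE E (M * q)) *
          (cE P E (M * q) w)⁻¹) = D₀' * (cE P E (M * q) w)⁻¹ := by
      have h4 : algebraMap (RE P E) (FE E (M * q)) (((ε⁻¹ : (RE P E)ˣ) : RE P E) ^ N₀) *
          algebraMap (RE P E) (FE E (M * q)) ((ε : RE P E) ^ N₀) = 1 := by
        rw [← map_mul, ← mul_pow, Units.inv_mul, one_pow, map_one]
      show algebraMap (RE P E) (FE E (M * q)) (((ε⁻¹ : (RE P E)ˣ) : RE P E) ^ N₀) *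
        ((algebraMap (RE P E) (FE E (M * q)) ((ε : RE P E) ^ N₀) * D₀') *
          (cE P E (M * q) w)⁻¹) = _
      rw [← mul_assoc, ← mul_assoc, h4, one_mul]
    rw [h3] at h2
    exact h2

/-- **Cut form, with expansion and ramification index** (= the body of `Ribet.H912.UnitPairAt`):
`D ∉ p₁`, `D' ∉ p₂` for the components `p₁ = B ∩ w V∞`, `p₂ = B ∩ w V₀` (`A2.Mod.IsCut`). -/
theorem exists_unitPair_cut_of_pkg {N₀ : ℕ} {X₀ : LaurentSeries ℤ}
    (hpkg : PkgAt P E M q N₀ X₀) {w : RE P E} (hS : Setting P E M q w)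
    {V : ValuationSubring (FE E (M * q))} {W : FE E (M * q) ≃ₐ[E] FE E (M * q)}
    (hV : IsVinf P E (M * q) V) (hW : IsFricke E (M * q) W)
    (p₁ p₂ : Ideal (chartAlg P E (M * q) (xE E M q)))
    (hc₁ : IsCut P E (M * q) w V (chartAlg P E (M * q) (xE E M q)) p₁)
    (hc₂ : IsCut P E (M * q) w (V.comap (W : FE E (M * q) →+* FE E (M * q)))
      (chartAlg P E (M * q) (xE E M q)) p₂) :
    ∃ (e : ℕ) (D D' : chartAlg P E (M * q) (xE E M q)), 0 < e ∧
      Associated ((q : ℕ) : RE P E) (w ^ e) ∧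
      D * D' = algebraMap (RE P E) (chartAlg P E (M * q) (xE E M q)) w ^ (N₀ * e) ∧
      D ∉ p₁ ∧ D' ∉ p₂ ∧
      (((D : FE E (M * q)) : FE E (M * q)) : LaurentSeries E) =
        Fermat.Agent.S36.H438.castE E X₀ := by
  obtain ⟨e, D, D', he, hass, hmul, hD, hD', hexp⟩ := exists_unitPair_of_pkg hpkg hS hV hW
  exact ⟨e, D, D', he, hass, hmul, fun h => hD ((hc₁ D).mp h), fun h => hD' ((hc₂ D').mp h),
    hexp⟩

/-- Exponents of an irreducible are determined up to association. -/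
theorem pow_eq_of_associated_h461 {R : Type*} [CommRing R] [IsDomain R]
    [IsDiscreteValuationRing R] {w a : R} (hw : Irreducible w) {e e' : ℕ}
    (h : Associated a (w ^ e)) (h' : Associated a (w ^ e')) : e = e' := by
  obtain ⟨u, hu⟩ := h.symm.trans h'
  have h1 : (u : R) * w ^ e = ((1 : Rˣ) : R) * w ^ e' := by
    rw [Units.val_one, one_mul, mul_comm]
    exact hu
  exact IsDiscreteValuationRing.unit_mul_pow_congr_pow hw hw u 1 e e' h1

/-- **Cut form at a level of known ramification index** `e₀` (`q ~ w ^ e₀`; e.g. the tame level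
`ℚ(ζ_q)`: `e₀ = q - 1`), exponent `Nn = N₀ e₀` prime to `m` as soon as `N₀` and `e₀` are
(= the body of `Ribet.H712.Frame.UnitPairAt`, fields `N, D, D'` of `H704.CoreOut.WildFrame`). -/
theorem exists_unitPair_ram_of_pkg {N₀ : ℕ} {X₀ : LaurentSeries ℤ}
    (hpkg : PkgAt P E M q N₀ X₀) {w : RE P E} (hS : Setting P E M q w) {e₀ : ℕ}
    (hram : Associated ((q : ℕ) : RE P E) (w ^ e₀))
    {V : ValuationSubring (FE E (M * q))} {W : FE E (M * q) ≃ₐ[E] FE E (M * q)}
    (hV : IsVinf P E (M * q) V) (hW : IsFricke E (M * q) W)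
    (p₁ p₂ : Ideal (chartAlg P E (M * q) (xE E M q)))
    (hc₁ : IsCut P E (M * q) w V (chartAlg P E (M * q) (xE E M q)) p₁)
    (hc₂ : IsCut P E (M * q) w (V.comap (W : FE E (M * q) →+* FE E (M * q)))
      (chartAlg P E (M * q) (xE E M q)) p₂) :
    ∃ (D D' : chartAlg P E (M * q) (xE E M q)),
      D * D' = algebraMap (RE P E) (chartAlg P E (M * q) (xE E M q)) w ^ (N₀ * e₀) ∧
      D ∉ p₁ ∧ D' ∉ p₂ ∧
      (((D : FE E (M * q)) : FE E (M * q)) : LaurentSeries E) =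
        Fermat.Agent.S36.H438.castE E X₀ := by
  haveI := hS.dvr
  obtain ⟨e, D, D', -, hass, hmul, hD, hD', hexp⟩ :=
    exists_unitPair_cut_of_pkg hpkg hS hV hW p₁ p₂ hc₁ hc₂
  have he : e = e₀ := pow_eq_of_associated_h461 hS.unif hass hram
  subst he
  exact ⟨D, D', hmul, hD, hD', hexp⟩

end Pair

end Fermat.Agent.S59.Unit3.H461
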