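import Fermat.Agent.S59.Unit3.H461.UnitPairGen
import Fermat.Agent.S59.Unit3.H461.Unit3Hor

/-!
# S59 / UNIT-QR: the unit PACKAGE of a cube root of `u'(t) · u'(t^r)`, GENERIC in `(q, r)`
(helper461)

`u' = Δ(t)/Δ(t^q)` (`S28.H589.unitL' q`).  INPUT (`CubeData q r X Xinv`): integral series
`X`, `Xinv` with `X · Xinv = 1`, `X³ = u'(t) · u'(t^r)`, and `X ∈ F_{qr,E}` for every `E`
(e.g. `X = t^(-e) ∏ ((1 - tⁿ)(1 - t^{rn}) / ((1 - t^{qn})(1 - t^{qrn})))⁸`, the expansion of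
`(η(τ)η(rτ)/(η(qτ)η(qrτ)))⁸`; `(q, r) = (3, 2)` is `v3L`).

OUTPUT, at every level `M * q` with `r ∣ M` (`q` prime; `r = 1` or `r` prime):
`pkgAt_of_cubeData : PkgAt P E M q 8 X` — the unit pair `D = q⁸ / X`, `D' = X` in the format of
`S36.H438.mu_package` with exponent `8`; with `UnitPairGen` the cut form
`unitPairAt_of_cubeData` (= body of `Ribet.H912.UnitPairAt A M q 8 X`), and the unit over `ℚ̄`
(`unit_bar_of_cubeData`).

No new analysis: `D³ = (q¹² u)(q¹² u(t^r))`, `D'³ = u' · u'(t^r)`, helper438's results for the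
two factors, `H751.frickeCompat`, and integral closedness of valuation rings.
-/

set_option autoImplicit false
set_option synthInstance.maxHeartbeats 400000
set_option maxHeartbeats 1600000
set_option linter.unusedSectionVars false

noncomputable section

namespace Fermat.Agent.S59.Unit3.H461.QR

open ModularCurve HahnSeries Polynomial
open Fermat.Agent.A2.Mod Fermat.Agent.S28 Fermat.Agent.A2.Mod.H873
open Fermat.Agent.S36.H438 (castE uE uE' dE)
open Fermat.Agent.S59.Unit3.H461 (mem_of_pow_three_mem PkgAt)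

/-- **Cube-root data**: `X · Xinv = 1`, `X³ = u'(t) · u'(t^r)`, `X ∈ F_{qr,E}` for all `E`. -/
structure CubeData (q r : ℕ) [NeZero q] [NeZero r] (X Xinv : LaurentSeries ℤ) : Prop where
  mul : X * Xinv = 1
  cube : X ^ 3 = H589.unitL' q * qExpand ℤ r (H589.unitL' q)
  mem : ∀ E : IntermediateField ℚ Qb, castE E X ∈ FE E (q * r)

section Series

variable {q r : ℕ} [NeZero q] [NeZero r] {X Xinv : LaurentSeries ℤ}

/-- The cube relation for the inverse: `Xinv³ = u(t) · u(t^r)`. -/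
theorem CubeData.cube_inv (h : CubeData q r X Xinv) :
    Xinv ^ 3 = unitL ℤ q * qExpand ℤ r (unitL ℤ q) := by
  have h1 : unitL ℤ q * H589.unitL' q = 1 := Fermat.Agent.S36.H438.unitL_mul_unitL' q
  have h2 : qExpand ℤ r (unitL ℤ q) * qExpand ℤ r (H589.unitL' q) = 1 := by
    rw [← map_mul, h1, map_one]
  have h3 : X ^ 3 * Xinv ^ 3 = 1 := by
    rw [← mul_pow, h.mul, one_pow]
  calc Xinv ^ 3
      = Xinv ^ 3 * ((unitL ℤ q * H589.unitL' q) *
          (qExpand ℤ r (unitL ℤ q) * qExpand ℤ r (H589.unitL' q))) := by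
        rw [h1, h2, mul_one, mul_one]
    _ = (H589.unitL' q * qExpand ℤ r (H589.unitL' q)) * Xinv ^ 3 *
          (unitL ℤ q * qExpand ℤ r (unitL ℤ q)) := by ring
    _ = unitL ℤ q * qExpand ℤ r (unitL ℤ q) := by rw [← h.cube, h3, one_mul]

end Series

/-! ## 1. The elements -/

section Elements

variable (E : IntermediateField ℚ Qb) {q r : ℕ} [NeZero q] [NeZero r]
  {X Xinv : LaurentSeries ℤ} (h : CubeData q r X Xinv) (N : ℕ) [NeZero N] (hN : q * r ∣ N)

include h in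
theorem castE_mul_inv : castE E X * castE E Xinv = 1 := by
  rw [← map_mul, h.mul, map_one]

include h hN in
theorem castE_X_mem : castE E X ∈ FE E N :=
  Fermat.Agent.S36.H438.laurentBaseChange_mono_h438 E (full_degeneracy_le hN) (h.mem E)

include h hN in
theorem castE_Xinv_mem : castE E Xinv ∈ FE E N := by
  rw [eq_inv_of_mul_eq_one_right (castE_mul_inv E h)]
  exact inv_mem (castE_X_mem E h N hN)

/-- `Y(t) ∈ F_q ⟹ Y(t^r) ∈ F_N`, `q r ∣ N`. -/
theorem castE_qExpand_mem (q r : ℕ) [NeZero q] [NeZero r] {Y : LaurentSeries ℤ}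
    (hY : castE E Y ∈ FE E q) (N : ℕ) [NeZero N] (hN : q * r ∣ N) :
    castE E (qExpand ℤ r Y) ∈ FE E N := by
  have h1 : castE E (qExpand ℤ r Y)
      = ((heckeBetaBar E q r ⟨castE E Y, hY⟩ : FE E (q * r)) : LaurentSeries E) := by
    rw [coe_heckeBetaBar]
    exact coeffMap_qExpand _ r Y
  rw [h1]
  exact Fermat.Agent.S36.H438.laurentBaseChange_mono_h438 E (full_degeneracy_le hN)
    (SetLike.coe_mem _)

/-- `X` as an element of `F_{N,E}`. -/
def xE : FE E N := ⟨castE E X, castE_X_mem E h N hN⟩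

/-- `Xinv` as an element of `F_{N,E}`. -/
def xE' : FE E N := ⟨castE E Xinv, castE_Xinv_mem E h N hN⟩

variable (q r) in
/-- `u(t^r)`, `u = Δ(t^q)/Δ(t)`. -/
def urE : FE E N :=
  ⟨castE E (qExpand ℤ r (unitL ℤ q)),
    castE_qExpand_mem E q r (Fermat.Agent.S36.H438.castE_unitL_mem_level E q) N hN⟩

variable (q r) in
/-- `u'(t^r)`, `u' = Δ(t)/Δ(t^q)`. -/
def urE' : FE E N :=
  ⟨castE E (qExpand ℤ r (H589.unitL' q)),
    castE_qExpand_mem E q r (Fermat.Agent.S36.H438.castE_unitL'_mem E q q dvd_rfl) N hN⟩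

theorem coe_xE : ((xE E h N hN : FE E N) : LaurentSeries E) = castE E X := rfl

theorem coe_xE' : ((xE' E h N hN : FE E N) : LaurentSeries E) = castE E Xinv := rfl

theorem coe_urE :
    ((urE E q r N hN : FE E N) : LaurentSeries E) = castE E (qExpand ℤ r (unitL ℤ q)) := rfl

theorem coe_urE' :
    ((urE' E q r N hN : FE E N) : LaurentSeries E) = castE E (qExpand ℤ r (H589.unitL' q)) :=
  rfl

theorem xE_mul_xE' : xE E h N hN * xE' E h N hN = 1 :=
  Subtype.ext (castE_mul_inv E h)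

theorem xE_ne_zero : xE E h N hN ≠ 0 := fun h0 => by
  have := xE_mul_xE' E h N hN
  rw [h0, zero_mul] at this
  exact zero_ne_one this

theorem xE'_ne_zero : xE' E h N hN ≠ 0 := fun h0 => by
  have := xE_mul_xE' E h N hN
  rw [h0, mul_zero] at this
  exact zero_ne_one this

theorem xE'_eq_inv : xE' E h N hN = (xE E h N hN)⁻¹ :=
  eq_inv_of_mul_eq_one_right (xE_mul_xE' E h N hN)

theorem xE_inv : (xE E h N hN)⁻¹ = xE' E h N hN := (xE'_eq_inv E h N hN).symm

theorem xE'_inv : (xE' E h N hN)⁻¹ = xE E h N hN := by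
  rw [xE'_eq_inv, inv_inv]

include hN in
omit [NeZero q] [NeZero r] [NeZero N] in
theorem q_dvd : q ∣ N := (dvd_mul_right q r).trans hN

include hN in
omit [NeZero q] [NeZero r] [NeZero N] in
theorem r_dvd : r ∣ N := (dvd_mul_left r q).trans hN

include hN in
omit [NeZero q] [NeZero r] [NeZero N] in
theorem rq_dvd : r * q ∣ N := by
  rw [mul_comm]
  exact hN

/-- **The cube relation** in `F_{N,E}`: `X³ = u' · u'(t^r)`. -/
theorem xE_pow_three :
    xE E h N hN ^ 3 = uE' E N q (q_dvd N hN) * urE' E q r N hN := by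
  apply Subtype.ext
  show (castE E X) ^ 3 = castE E (H589.unitL' q) * castE E (qExpand ℤ r (H589.unitL' q))
  rw [← map_pow, h.cube, map_mul]

/-- **The cube relation** for the inverse: `Xinv³ = u · u(t^r)`. -/
theorem xE'_pow_three :
    xE' E h N hN ^ 3 = uE E N q (q_dvd N hN) * urE E q r N hN := by
  apply Subtype.ext
  show (castE E Xinv) ^ 3 = castE E (unitL ℤ q) * castE E (qExpand ℤ r (unitL ℤ q))
  rw [← map_pow, h.cube_inv, map_mul]

/-- `D = q⁸ · Xinv`. -/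
def dqE : FE E N := algebraMap E (FE E N) ((q : E) ^ 8) * xE' E h N hN

theorem coe_dqE :
    ((dqE E h N hN : FE E N) : LaurentSeries E)
      = castE E ((q : LaurentSeries ℤ) ^ 8 * Xinv) := by
  show algebraMap E (LaurentSeries E) ((q : E) ^ 8) * castE E Xinv = _
  rw [map_mul, map_pow, map_pow, map_natCast, map_natCast]

/-- **The unit pair**: `D · D' = q⁸`. -/
theorem dqE_mul_xE : dqE E h N hN * xE E h N hN = algebraMap E (FE E N) ((q : E) ^ 8) := by
  rw [dqE, mul_assoc, mul_comm (xE' E h N hN), xE_mul_xE', mul_one]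

omit [NeZero r] in
theorem q_pow_ne_zero (n : ℕ) : ((q : E) ^ n) ≠ 0 :=
  pow_ne_zero _ (Nat.cast_ne_zero.mpr (NeZero.ne q))

theorem dqE_inv :
    (dqE E h N hN)⁻¹ = algebraMap E (FE E N) ((q : E) ^ 8)⁻¹ * xE E h N hN := by
  rw [dqE, mul_inv, xE'_inv, map_inv₀]

variable (q r) in
/-- `q¹² u(t^r)`. -/
def drE : FE E N := algebraMap E (FE E N) ((q : E) ^ 12) * urE E q r N hN

theorem coe_drE :
    ((drE E q r N hN : FE E N) : LaurentSeries E)
      = castE E ((q : LaurentSeries ℤ) ^ 12 * qExpand ℤ r (unitL ℤ q)) := by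
  show algebraMap E (LaurentSeries E) ((q : E) ^ 12) * castE E (qExpand ℤ r (unitL ℤ q)) = _
  rw [map_mul, map_pow, map_pow, map_natCast, map_natCast]

/-- `D³ = (q¹² u) · (q¹² u(t^r))`. -/
theorem dqE_pow_three :
    dqE E h N hN ^ 3 = dE E N q (q_dvd N hN) * drE E q r N hN := by
  rw [dqE, mul_pow, xE'_pow_three, dE, drE, ← map_pow]
  have h8 : ((q : E) ^ 8) ^ 3 = (q : E) ^ 12 * (q : E) ^ 12 := by ring
  rw [h8, map_mul]
  ring

end Elements

/-! ## 2. `V∞` -/

section Gauss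

variable (P : ValuationSubring Qb) (E : IntermediateField ℚ Qb) {q r : ℕ} [NeZero q] [NeZero r]
  {X Xinv : LaurentSeries ℤ} (h : CubeData q r X Xinv) (N : ℕ) [NeZero N] (hN : q * r ∣ N)

/-- `D' = X` is a unit of `V∞`. -/
theorem xE_unit_vinf {V : ValuationSubring (FE E N)} (hV : IsVinf P E N V) :
    xE E h N hN ∈ V ∧ (xE E h N hN)⁻¹ ∈ V := by
  refine ⟨Fermat.Agent.S36.H438.mem_vinf_of_coe_eq_castE P E hV (coe_xE E h N hN), ?_⟩
  rw [xE_inv]
  exact Fermat.Agent.S36.H438.mem_vinf_of_coe_eq_castE P E hV (coe_xE' E h N hN)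

end Gauss

/-! ## 3. Finite places -/

section Horizontal

theorem qExpand_eval₂ (r : ℕ) [NeZero r] (Φ : Polynomial (Polynomial ℤ))
    (A B : LaurentSeries ℤ) (h : Φ.eval₂ (evalAt B) A = 0) :
    Φ.eval₂ (evalAt (qExpand ℤ r B)) (qExpand ℤ r A) = 0 := by
  have h2 := Polynomial.hom_eval₂ Φ (evalAt B) (qExpand ℤ r) A
  rw [h, map_zero, Fermat.Agent.S28.H145.qExpand_comp_evalAt] at h2
  exact h2.symm

/-- The two integrality relations of the unit pair of level `q`, at `t^r`. -/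
theorem exists_unitPoly_r (q r : ℕ) [NeZero q] [NeZero r] (hq : q.Prime) :
    ∃ Ψ : Polynomial (Polynomial ℤ), Ψ.Monic ∧
      Ψ.eval₂ (evalAt (qExpand ℤ r (jqModC ℤ)))
        ((q : LaurentSeries ℤ) ^ 12 * qExpand ℤ r (unitL ℤ q)) = 0 ∧
      Ψ.eval₂ (evalAt (qExpand ℤ (r * q) (jqModC ℤ))) (qExpand ℤ r (H589.unitL' q)) = 0 := by
  obtain ⟨Ψ, hΨ, h1, h2⟩ := Fermat.Agent.S36.H438.exists_unitPoly_both q hq
  refine ⟨Ψ, hΨ, ?_, ?_⟩
  · have h := qExpand_eval₂ r Ψ _ _ h1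
    rwa [map_mul, map_pow, map_natCast] at h
  · have h := qExpand_eval₂ r Ψ _ _ h2
    rwa [qExpand_qExpand] at h

variable (E : IntermediateField ℚ Qb) {q r : ℕ} [NeZero q] [NeZero r]
  {X Xinv : LaurentSeries ℤ} (h : CubeData q r X Xinv) (N : ℕ) [NeZero N] (hN : q * r ∣ N)

theorem exists_unitPoly_r_FE (hq : q.Prime) :
    ∃ Ψ : Polynomial (Polynomial ℤ), Ψ.Monic ∧
      Ψ.eval₂ (Polynomial.aeval (R := ℤ) (jE E N r (r_dvd N hN))).toRingHom
        (drE E q r N hN) = 0 ∧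
      Ψ.eval₂ (Polynomial.aeval (R := ℤ) (jE E N (r * q) (rq_dvd N hN))).toRingHom
        (urE' E q r N hN) = 0 := by
  obtain ⟨Ψ, hΨ, h1, h2⟩ := exists_unitPoly_r q r hq
  refine ⟨Ψ, hΨ, ?_, ?_⟩
  · exact eval₂_eq_zero_of_int E N Ψ _ _ _ _ (coe_drE E N hN) (coe_jE_int E N r _) h1
  · exact eval₂_eq_zero_of_int E N Ψ _ _ _ _ (coe_urE' E N hN) (coe_jE_int E N (r * q) _) h2

theorem drE_mem_of_jr_mem (hq : q.Prime) (V : ValuationSubring (FE E N))
    (hj : jE E N r (r_dvd N hN) ∈ V) : drE E q r N hN ∈ V := by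
  obtain ⟨Ψ, hΨ, h1, -⟩ := exists_unitPoly_r_FE E N hN hq
  exact mem_valuationSubring_of_monic_eval Ψ hΨ h1 V hj

theorem urE'_mem_of_jrq_mem (hq : q.Prime) (V : ValuationSubring (FE E N))
    (hj : jE E N (r * q) (rq_dvd N hN) ∈ V) : urE' E q r N hN ∈ V := by
  obtain ⟨Ψ, hΨ, -, h2⟩ := exists_unitPoly_r_FE E N hN hq
  exact mem_valuationSubring_of_monic_eval Ψ hΨ h2 V hj

/-- `j_r ∈ V → j_{rq} ∈ V` (modular equation of level `q` at `t^r`). -/
theorem jrq_mem_of_jr_mem (hq : q.Prime) (V : ValuationSubring (FE E N))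
    (hj : jE E N r (r_dvd N hN) ∈ V) : jE E N (r * q) (rq_dvd N hN) ∈ V := by
  obtain ⟨D⟩ := Fermat.Agent.S28.H807.nonempty_modPolyData q hq
  have h0 := qExpand_eval₂ r D.Φ _ _ D.eval_jp
  rw [qExpand_qExpand] at h0
  have h1 : D.Φ.eval₂ (Polynomial.aeval (R := ℤ) (jE E N r (r_dvd N hN))).toRingHom
      (jE E N (r * q) (rq_dvd N hN)) = 0 :=
    eval₂_eq_zero_of_int E N D.Φ _ _ _ _ (coe_jE_int E N (r * q) _) (coe_jE_int E N r _) h0
  exact mem_valuationSubring_of_monic_eval D.Φ D.monic h1 V hj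

/-- `j ∈ V → j_r ∈ V` for `r = 1` or `r` prime. -/
theorem jr_mem_of_j_mem (hr : r = 1 ∨ r.Prime) (V : ValuationSubring (FE E N))
    (hj : jE E N 1 (one_dvd N) ∈ V) : jE E N r (r_dvd N hN) ∈ V := by
  rcases hr with h1 | hp
  · subst h1
    exact hj
  · exact (Fermat.Agent.S36.H438.j_mem_iff_jq_mem E N r (r_dvd N hN) hp V).mp hj

/-- `D = q⁸ / X` lies in every valuation subring containing `j`. -/
theorem dqE_mem_of_j_mem (hq : q.Prime) (hr : r = 1 ∨ r.Prime) (V : ValuationSubring (FE E N))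
    (hj : jE E N 1 (one_dvd N) ∈ V) : dqE E h N hN ∈ V := by
  have hjr := jr_mem_of_j_mem E N hN hr V hj
  apply mem_of_pow_three_mem V
  rw [dqE_pow_three]
  exact V.mul_mem _ _
    (Fermat.Agent.S36.H438.dE_mem_of_j_mem E N q _ hq V hj)
    (drE_mem_of_jr_mem E N hN hq V hjr)

/-- `D' = X` lies in every valuation subring containing `j`. -/
theorem xE_mem_of_j_mem (hq : q.Prime) (hr : r = 1 ∨ r.Prime) (V : ValuationSubring (FE E N))
    (hj : jE E N 1 (one_dvd N) ∈ V) : xE E h N hN ∈ V := by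
  have hjr := jr_mem_of_j_mem E N hN hr V hj
  have hjq := (Fermat.Agent.S36.H438.j_mem_iff_jq_mem E N q (q_dvd N hN) hq V).mp hj
  apply mem_of_pow_three_mem V
  rw [xE_pow_three]
  exact V.mul_mem _ _
    (Fermat.Agent.S36.H438.uE'_mem_of_jq_mem E N q _ hq V hjq)
    (urE'_mem_of_jrq_mem E N hN hq V (jrq_mem_of_jr_mem E N hN hq V hjr))

/-- At a place `V ⊇ E` of `F_N` where `j` is finite, `D` and `D'` are units. -/
theorem pair_unit_of_j_mem (hq : q.Prime) (hr : r = 1 ∨ r.Prime) (V : ValuationSubring (FE E N))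
    (hE : ∀ e : E, algebraMap E (FE E N) e ∈ V) (hj : jE E N 1 (one_dvd N) ∈ V) :
    (dqE E h N hN ∈ V ∧ (dqE E h N hN)⁻¹ ∈ V) ∧ (xE E h N hN ∈ V ∧ (xE E h N hN)⁻¹ ∈ V) := by
  have hD := dqE_mem_of_j_mem E h N hN hq hr V hj
  have hv := xE_mem_of_j_mem E h N hN hq hr V hj
  refine ⟨⟨hD, ?_⟩, ⟨hv, ?_⟩⟩
  · rw [dqE_inv]
    exact V.mul_mem _ _ (hE _) hv
  · have h1 := V.mul_mem _ _ (hE ((q : E) ^ 8)⁻¹) hD
    rwa [dqE, ← mul_assoc, ← map_mul, inv_mul_cancel₀ (q_pow_ne_zero E 8), map_one, one_mul,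
      ← xE_inv] at h1

end Horizontal

/-! ## 4. The Fricke involution -/

section Fricke

variable (P : ValuationSubring Qb) (E : IntermediateField ℚ Qb) {q r : ℕ} [NeZero q] [NeZero r]
  {X Xinv : LaurentSeries ℤ} (h : CubeData q r X Xinv)

omit [NeZero r] in
theorem castE_qExpand_unitL'_mul (m : ℕ) [NeZero m] :
    castE E (qExpand ℤ m (H589.unitL' q)) * castE E (qExpand ℤ m (unitL ℤ q)) = 1 := by
  rw [← map_mul, ← map_mul, mul_comm, Fermat.Agent.S36.H438.unitL_mul_unitL', map_one, map_one]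

/-- `q¹² u(t^r) = β (q¹² u)`, `β : F_{qm} → F_{qm·r}`. -/
theorem drE_eq_beta (m : ℕ) [NeZero m] (hN : q * r ∣ q * m * r) :
    drE E q r (q * m * r) hN = βE E (q * m) r (dE E (q * m) q (dvd_mul_right q m)) := by
  apply Subtype.ext
  rw [coe_drE, coe_heckeBetaBar, Fermat.Agent.S36.H438.coe_dE]
  have hX : (q : LaurentSeries ℤ) ^ 12 * qExpand ℤ r (unitL ℤ q)
      = qExpand ℤ r ((q : LaurentSeries ℤ) ^ 12 * unitL ℤ q) := by
    rw [map_mul, map_pow, map_natCast]
  rw [hX]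
  exact coeffMap_qExpand _ r _

/-- `W (q¹² u(t^r)) = u'(t^m)` in `t`-expansions, level `N = q * m * r`. -/
theorem coe_fricke_drE (m : ℕ) [NeZero m] (hN : q * r ∣ q * m * r)
    (W : FE E (q * m * r) ≃ₐ[E] FE E (q * m * r)) (hW : IsFricke E (q * m * r) W) :
    ((W (drE E q r (q * m * r) hN) : FE E (q * m * r)) : LaurentSeries E)
      = castE E (qExpand ℤ m (H589.unitL' q)) := by
  have h1 := (Fermat.Agent.A2.Mod.H751.frickeCompat E (q * m) r
    (Fermat.Agent.A2.Mod.H751.frickeE E (q * m)) W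
    (Fermat.Agent.A2.Mod.H751.isFricke_frickeE E (q * m)) hW
    (dE E (q * m) q (dvd_mul_right q m))).2
  rw [drE_eq_beta, h1, coe_heckeAlphaBar]
  exact Fermat.Agent.S36.H438.coe_fricke_dE E (q * m) q m rfl (dvd_mul_right q m)
    (Fermat.Agent.A2.Mod.H751.frickeE E (q * m))
    (Fermat.Agent.A2.Mod.H751.isFricke_frickeE E (q * m))

/-- `q¹² u(t^r)` is a unit of `V₀ = V∞.comap W`, level `N = q * m * r`. -/
theorem drE_unit_vzero (m : ℕ) [NeZero m] (hN : q * r ∣ q * m * r)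
    {V : ValuationSubring (FE E (q * m * r))}
    (W : FE E (q * m * r) ≃ₐ[E] FE E (q * m * r)) (hV : IsVinf P E (q * m * r) V)
    (hW : IsFricke E (q * m * r) W) :
    W (drE E q r (q * m * r) hN) ∈ V ∧ W (drE E q r (q * m * r) hN)⁻¹ ∈ V := by
  have hc := coe_fricke_drE E m hN W hW
  refine ⟨Fermat.Agent.S36.H438.mem_vinf_of_coe_eq_castE P E hV hc, ?_⟩
  rw [map_inv₀]
  refine Fermat.Agent.S36.H438.mem_vinf_of_coe_eq_castE P E hV
    (X := qExpand ℤ m (unitL ℤ q)) ?_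
  rw [IntermediateField.coe_inv, hc]
  exact inv_eq_of_mul_eq_one_right (castE_qExpand_unitL'_mul E m)

/-- `D = q⁸ / X` is a unit of `V₀ = V∞.comap W`, any level `N` with `q r ∣ N`. -/
theorem dqE_unit_vzero (N : ℕ) [NeZero N] (hN : q * r ∣ N) {V : ValuationSubring (FE E N)}
    (W : FE E N ≃ₐ[E] FE E N) (hV : IsVinf P E N V) (hW : IsFricke E N W) :
    dqE E h N hN ∈ V.comap (W : FE E N →+* FE E N) ∧
      (dqE E h N hN)⁻¹ ∈ V.comap (W : FE E N →+* FE E N) := by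
  obtain ⟨m, rfl⟩ : ∃ m, N = q * m * r := by
    obtain ⟨k, hk⟩ := hN
    exact ⟨k, by rw [hk]; ring⟩
  have hm : NeZero m := ⟨by
    rintro rfl
    exact NeZero.ne (q * 0 * r) (by simp)⟩
  have h1 := Fermat.Agent.S36.H438.dE_unit_vzero P E (q * m * r) q (m * r) (by ring)
    (q_dvd _ hN) W hV hW
  have h1a : W (dE E (q * m * r) q (q_dvd _ hN)) ∈ V := h1.1
  have h1b : W (dE E (q * m * r) q (q_dvd _ hN))⁻¹ ∈ V := h1.2
  obtain ⟨h2a, h2b⟩ := drE_unit_vzero P E m hN W hV hW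
  constructor
  · show W _ ∈ V
    apply mem_of_pow_three_mem V
    rw [← map_pow, dqE_pow_three, map_mul]
    exact V.mul_mem _ _ h1a h2a
  · show W _ ∈ V
    apply mem_of_pow_three_mem V
    rw [← map_pow, inv_pow, dqE_pow_three, mul_inv, map_mul]
    exact V.mul_mem _ _ h1b h2b

end Fricke

/-! ## 5. The package -/

section Package

variable (P : ValuationSubring Qb) (E : IntermediateField ℚ Qb) {q r : ℕ} [NeZero q] [NeZero r]
  {X Xinv : LaurentSeries ℤ} (h : CubeData q r X Xinv) (M : ℕ) [NeZero M] (hrM : r ∣ M)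

include hrM in
omit [NeZero q] [NeZero r] [NeZero M] in
theorem qr_dvd_mul : q * r ∣ M * q := by
  rw [mul_comm q r]
  exact Nat.mul_dvd_mul hrM (dvd_refl q)

/-- `D = q⁸ / X` lies in the finite chart of the coordinate `x = j · j_q`. -/
theorem dqE_mem_chartAlg (hq : q.Prime) (hr : r = 1 ∨ r.Prime) :
    dqE E h (M * q) (qr_dvd_mul M hrM) ∈
      chartAlg P E (M * q) (Fermat.Agent.A2.Mod.xE E M q) := by
  rw [← Fermat.Agent.A2.Mod.H142.mem_chart_iff]
  refine isIntegralElem_of_isIntegral_closure _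
    (isIntegral_closure_of_forall_valuationSubring fun V hx => ?_)
  exact dqE_mem_of_j_mem E h (M * q) _ hq hr V
    (Fermat.Agent.S36.H438.j_mem_of_x_mem E M q hq V hx).1

/-- `D' = X` lies in the finite chart of the coordinate `x = j · j_q`. -/
theorem xE_mem_chartAlg (hq : q.Prime) (hr : r = 1 ∨ r.Prime) :
    QR.xE E h (M * q) (qr_dvd_mul M hrM) ∈
      chartAlg P E (M * q) (Fermat.Agent.A2.Mod.xE E M q) := by
  rw [← Fermat.Agent.A2.Mod.H142.mem_chart_iff]
  refine isIntegralElem_of_isIntegral_closure _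
    (isIntegral_closure_of_forall_valuationSubring fun V hx => ?_)
  exact xE_mem_of_j_mem E h (M * q) _ hq hr V
    (Fermat.Agent.S36.H438.j_mem_of_x_mem E M q hq V hx).1

include h hrM in
/-- **UNIT-QR, packaged at level `M * q`, `r ∣ M`** (format of `S36.H438.mu_package`, exponent
`8`): `D = q⁸ / X`, `D' = X`. -/
theorem mu_package_of_cubeData (hq : q.Prime) (hr : r = 1 ∨ r.Prime) :
    ∃ D D' : FE E (M * q),
      (D : LaurentSeries E) = castE E ((q : LaurentSeries ℤ) ^ 8 * Xinv) ∧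
      (D' : LaurentSeries E) = castE E X ∧
      D * D' = algebraMap E (FE E (M * q)) ((q : E) ^ 8) ∧
      D ∈ chartAlg P E (M * q) (Fermat.Agent.A2.Mod.xE E M q) ∧
      D' ∈ chartAlg P E (M * q) (Fermat.Agent.A2.Mod.xE E M q) ∧
      (∀ V : ValuationSubring (FE E (M * q)), IsVinf P E (M * q) V → D' ∈ V ∧ D'⁻¹ ∈ V) ∧
      (∀ (V : ValuationSubring (FE E (M * q))) (W : FE E (M * q) ≃ₐ[E] FE E (M * q)),
        IsVinf P E (M * q) V → IsFricke E (M * q) W →
          D ∈ V.comap (W : FE E (M * q) →+* FE E (M * q)) ∧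
          D⁻¹ ∈ V.comap (W : FE E (M * q) →+* FE E (M * q))) ∧
      (∀ V : ValuationSubring (FE E (M * q)), (∀ e : E, algebraMap E (FE E (M * q)) e ∈ V) →
        jE E (M * q) 1 (one_dvd _) ∈ V → (D ∈ V ∧ D⁻¹ ∈ V) ∧ (D' ∈ V ∧ D'⁻¹ ∈ V)) :=
  have hN : q * r ∣ M * q := qr_dvd_mul M hrM
  ⟨dqE E h (M * q) hN, QR.xE E h (M * q) hN, coe_dqE E h (M * q) hN, coe_xE E h (M * q) hN,
    dqE_mul_xE E h (M * q) hN, dqE_mem_chartAlg P E h M hrM hq hr,
    xE_mem_chartAlg P E h M hrM hq hr,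
    fun _ hV => xE_unit_vinf P E h (M * q) hN hV,
    fun _ W hV hW => dqE_unit_vzero P E h (M * q) hN W hV hW,
    fun V hE hj => pair_unit_of_j_mem E h (M * q) hN hq hr V hE hj⟩

include h hrM in
/-- **UNIT-QR as a `PkgAt`** (exponent `8`, expansion `X`). -/
theorem pkgAt_of_cubeData (hq : q.Prime) (hr : r = 1 ∨ r.Prime) : PkgAt P E M q 8 X := by
  obtain ⟨D, D', -, hexp, hmul, hD, hD', hVu, hV0u, -⟩ :=
    mu_package_of_cubeData P E h M hrM hq hr
  exact ⟨D, D', hexp, hmul, hD, hD', hVu, hV0u⟩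

include h hrM in
/-- **UNIT-QR, cut form** (= the body of `Ribet.H912.UnitPairAt A M q 8 X`). -/
theorem unitPairAt_of_cubeData (A : ValuationSubring Qb) (hq : q.Prime)
    (hr : r = 1 ∨ r.Prime) :
    ∀ (E : IntermediateField ℚ Qb) (w : RE A E), Setting A E M q w →
      Fermat.Agent.A2.GoodField A E →
      ∀ (V : ValuationSubring (FE E (M * q)))
        (W : FE E (M * q) ≃ₐ[E] FE E (M * q)),
        IsVinf A E (M * q) V → IsFricke E (M * q) W →
        ∀ p₁ p₂ : Ideal (chartAlg A E (M * q) (Fermat.Agent.A2.Mod.xE E M q)),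
          IsCut A E (M * q) w V (chartAlg A E (M * q) (Fermat.Agent.A2.Mod.xE E M q)) p₁ →
          IsCut A E (M * q) w (V.comap (W : FE E (M * q) →+* FE E (M * q)))
            (chartAlg A E (M * q) (Fermat.Agent.A2.Mod.xE E M q)) p₂ →
          ∃ (e : ℕ) (D D' : chartAlg A E (M * q) (Fermat.Agent.A2.Mod.xE E M q)), 0 < e ∧
            Associated ((q : ℕ) : RE A E) (w ^ e) ∧
            D * D' = algebraMap (RE A E)
              (chartAlg A E (M * q) (Fermat.Agent.A2.Mod.xE E M q)) w ^ (8 * e) ∧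
            D ∉ p₁ ∧ D' ∉ p₂ ∧
            (((D : FE E (M * q)) : FE E (M * q)) : LaurentSeries E) =
              Fermat.Agent.S36.H438.castE E X := by
  intro E w hS _ V W hV hW p₁ p₂ hc₁ hc₂
  exact Fermat.Agent.S59.Unit3.H461.exists_unitPair_cut_of_pkg
    (pkgAt_of_cubeData A E h M hrM hq hr) hS hV hW p₁ p₂ hc₁ hc₂

end Package

/-! ## 6. The unit over `ℚ̄` -/

section Bar

variable {q r : ℕ} [NeZero q] [NeZero r] {X Xinv : LaurentSeries ℤ} (h : CubeData q r X Xinv)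

include h in
theorem coeffMap_bar_mul :
    coeffMap (Int.castRingHom Qb) Xinv * coeffMap (Int.castRingHom Qb) X = 1 := by
  rw [← map_mul, mul_comm, h.mul, map_one]

include h in
/-- **The unit over `ℚ̄`** (inputs `DQ`, `hDQ0`, `hDQ` of `Ribet.H912.tameCoreGen` with
`X₀ = X`): `DQ = 1 / X ∈ F(N)`, `q r ∣ N`, given `X ∈ F(q r)` over `ℚ̄`. -/
theorem unit_bar_of_cubeData (N : ℕ) [NeZero N] (hN : q * r ∣ N)
    (hbar : coeffMap (Int.castRingHom Qb) X ∈
      laurentBaseChange Qb (modularFunctionFieldFull (q * r))) :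
    ∃ DQ : laurentBaseChange Qb (modularFunctionFieldFull N),
      (DQ : LaurentSeries Qb) = coeffMap (Int.castRingHom Qb) Xinv ∧ DQ ≠ 0 ∧
      ∀ E : IntermediateField ℚ Qb, (DQ : LaurentSeries Qb) *
        coeffMap (algebraMap E Qb) (Fermat.Agent.S36.H438.castE E X) = 1 := by
  have hX : coeffMap (Int.castRingHom Qb) X ∈
      laurentBaseChange Qb (modularFunctionFieldFull N) :=
    Fermat.Agent.S36.H438.laurentBaseChange_mono_h438 Qb (full_degeneracy_le hN) hbar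
  have hinv : coeffMap (Int.castRingHom Qb) Xinv = (coeffMap (Int.castRingHom Qb) X)⁻¹ :=
    eq_inv_of_mul_eq_one_left (coeffMap_bar_mul h)
  have hXinv : coeffMap (Int.castRingHom Qb) Xinv ∈
      laurentBaseChange Qb (modularFunctionFieldFull N) := by
    rw [hinv]
    exact inv_mem hX
  refine ⟨⟨coeffMap (Int.castRingHom Qb) Xinv, hXinv⟩, rfl, ?_, ?_⟩
  · intro h0
    have h1 := congrArg Subtype.val h0
    have h2 := coeffMap_bar_mul h
    rw [show coeffMap (Int.castRingHom Qb) Xinv = 0 from h1, zero_mul] at h2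
    exact zero_ne_one h2
  · intro E
    rw [Fermat.Agent.S36.H438.coeffMap_castE]
    exact coeffMap_bar_mul h

end Bar

/-! ## 7. The instance `(q, r) = (3, 2)` -/

/-- `v3L` is cube-root data for `(3, 2)`. -/
theorem cubeData_three_two : CubeData 3 2 Fermat.Agent.S59.Unit3.H461.v3L
    Fermat.Agent.S59.Unit3.H461.v3InvL where
  mul := Fermat.Agent.S59.Unit3.H461.v3L_mul_v3InvL
  cube := Fermat.Agent.S59.Unit3.H461.v3L_pow_three
  mem := fun E => Fermat.Agent.S59.Unit3.H461.castE_v3L_mem E (3 * 2) (by norm_num)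

end Fermat.Agent.S59.Unit3.H461.QR
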